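import Mathlib
import Fermat.Agent.LT.T7.H484.PairAQSpec
import Fermat.Agent.LT.T7.H589.StepTSpec

/-!
# Row LT, tower T7, node T7.L2Q.1.H2a.A.1 `PQ484.StepTQC484` (sub-architect helper216, registry
# row 2955): THE CUT over `ℚ` -- Spec

OFF-MAIN.  Definitions and frozen Props only (the proved top is `StepTQTop.lean`).  No hole,
nothing assumed.  ADDITIVE (new names only, suffix `216`, namespace
`Fermat.Agent.LT.T7.TQ216`).  Vocabulary: `T7/H484/PairAQSpec.lean` (helper484, sha256 2232ea92)
and `T7/H589/StepTSpec.lean` (helper589, sha256 f2cef127) with their imports, byte-identical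
copies.

PORT over `ℚ` (`ℓ = 2`, TWO `K_∞`-types `w0`, `w1` downstairs) of the cut of helper589 of the
cubic node `B981.StepTC981`.  THE SAME STEPS (`ST589.tStep589`, `ST589.sStep589`,
`ST589.dStep589`): for the generator `T_w`, `w ∉ S'`, `v` the prime of `ℚ` under `w`, `d` the
residue degree,

    φ' = dStep589 w H' z' 1 φ,        f' t = dStep589 v H z d (f t)    (t = w0, w1).

    stepTQC_of216 : ST589.PlaceC589 ℚ F → PlaceQC216 F → ST589.SysC589 F → ST589.SysC589 ℚ
        → ST589.DTestC589 F → DTestTC216 ℚ → ST589.DEkC589 F → DEkTC216 ℚ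
        → ST589.DSuppC589 F → ST589.DSuppC589 ℚ → ST589.DOpC589 F → DOpTC216 ℚ
        → ShapeTQC216 F → PQ484.StepTQC484 F                                     (VERBATIM)

## The leaves

REUSED from the cubic cut (closed or being closed there, for EVERY number field): upstairs
`ST589.SysC589 F`, `ST589.DTestC589 F`, `ST589.DEkC589 F`, `ST589.DSuppC589 F`,
`ST589.DOpC589 F`; downstairs `ST589.SysC589 ℚ`, `ST589.DSuppC589 ℚ` (no `K_∞`-type in the
statement); the extension `ST589.PlaceC589 ℚ F` (second clause only: `v ∣ 𝔫 → w ∣ 𝔫 𝒪_F`).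

NEW (this file):

* **`DTestTC216 F`**, **`DEkTC216 F`**, **`DOpTC216 F`** [port]: the leaves `ST589.DTestC589`,
  `ST589.DEkC589`, `ST589.DOpC589` for an ARBITRARY `K_∞`-type `τ` in place of `T5.trivType`
  (used downstairs for `τ = t.type`, `t = w0, w1`; `w0.type = T5.trivType`).  The proofs of the
  cubic leaves do not use the type: the steps are finite sums of RIGHT translates by elements
  supported at ONE finite place, which commute with the elements supported at infinity, and the
  type `τ` itself is not changed (`IsTestFn.ktype`).  So: the proof of the cubic leaf with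
  `T5.trivType` replaced by `τ`.  Each implies the cubic leaf (`τ = T5.trivType`).
* **`PlaceQC216 F`** [S] (number theory): every finite place `w` of `F` lies over a place `v`
  of `ℚ` with a residue degree `d`, and there is a PRIME NUMBER `p` in `v` and in `w` with
  `N w = p ^ d` (the form of the first clause of `L2Q.IsBCDataQ`).
* **`ShapeTQC216 F`** [XL, NODE]: the local shape `IsAvgPureQ801 … (LocAQ801 c …) 1` of the new
  triple.  Mirror of `ST589.ShapeTC589`.

## FALSITY CHECKS (helper216)

(a) `IsTestFn 𝔫 τ f` contains `IsKType τ`, and the type of the steps is the type of `f`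
(`arch_right`, `arch_left`: `k` at infinity commutes with `z⁻¹ h` at `v`), so `DTestTC216` is
true for every `τ` for which the hypothesis can hold.  (b) `DOpTC216`: the function `χ` is only
continuous, right invariant under `U(𝔫₀)` and a Hecke eigenfunction at `v`; its type is not in
the statement and the type of `f` is not used (`I(d) = ∫ f(y) χ(x y d) dy`).  `d = 0`:
`dStep589 … 0 f = 2 f` and `satakePow 0 a b = 2`.  (c) `PlaceQC216`: `v = w ∩ ℤ = (p)`,
`N v = p`, `d` the degree of the residue field; NO hypothesis on `F` is needed (the hypothesis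
`IsImagQuad F` is there to allow the proof from `ST589.PlaceC589 ℚ F` and
`MQ298.isCycExt_of_imagQuad298`).  (d) `ShapeTQC216`: `w ∉ S'` and `3 ∈ S` (`IsRamQ60`, the only
ramified prime of `ℚ(√-3)`), `S'` a union of fibres: `w` is unramified, `d = 2` (inert:
upstairs the Satake transform is multiplied by `X + Y = x² + y²`, downstairs by the Dickson
polynomial `x² + y²` of `x + y`, `x y`) or `d = 1` (split: ONE factor of the product over the
fibre is multiplied by `x + y`).  The SAME finite components downstairs for the two types, the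
components at infinity are untouched, so the constant `c` of the Abel relation is kept.
(e) In the top the operator identity downstairs is asked for the eigenfunctions `χ` of type `t`
with `IsBCDataQ t c C S` only; the prime `p` of `PlaceQC216` is outside `S` because `S` consists
of primes under `S'` (`under_exact`) and `S'` is a union of fibres (`fibre`).
-/

set_option autoImplicit false

open AutomorphicForm IsDedekindDomain NumberField MeasureTheory
open scoped ComplexConjugate

noncomputable section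

namespace Fermat.Agent.LT.T7.TQ216

open Fermat.Agent.LT.H556 Fermat.Agent.LT.H556.A0 Fermat.Agent.LT.T7 Fermat.Agent.LT.T7.H305
  Fermat.Agent.LT.T7.L2Q Fermat.Agent.LT.T7.H893 Fermat.Agent.LT.T7.H962
  Fermat.Agent.LT.T7.H732 Fermat.Agent.LT.T7.MQ298 Fermat.Agent.LT.T7.CQ801
  Fermat.Agent.LT.T7.ST589 Fermat.Agent.LT.T7.PQ484

attribute [local instance] Fermat.Agent.LT.T5.instMeasurableSpaceG

/-! ## 1. The leaves for ONE field and an arbitrary `K_∞`-type -/

section OneField

variable (F : Type) [Field F] [NumberField F]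

/-- **LEAF TQ.2 = D-TEST for a type `τ`.**  `ST589.DTestC589` with `T5.trivType` replaced by an
arbitrary `τ`: the steps at a place prime to the level preserve the test functions of the level
and of the type `τ`.  See the header. -/
def DTestTC216 : Prop :=
  ∀ (τ : G F → ℂ) (𝔫 : Ideal (𝓞 F)) (v : HeightOneSpectrum (𝓞 F)), ¬ v.asIdeal ∣ 𝔫 →
    ∀ (H : Finset (G F)) (z : G F), IsHeckeCosetSystem v H → IsScalarUniformizerAt v z →
    ∀ f : G F → ℂ, T5.IsTestFn 𝔫 τ f →
      ∀ d : ℕ, T5.IsTestFn 𝔫 τ (dStep589 v H z d f)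

/-- **LEAF TQ.3 = D-EK for a type `τ`.**  `ST589.DEkC589` with `T5.trivType` replaced by an
arbitrary `τ`: the steps preserve the Eisenstein-killing functions with Eisenstein-killing
adjoints.  See the header. -/
def DEkTC216 : Prop :=
  ∀ (τ : G F → ℂ) (R : Frame5 F), IsFrame5 R →
    ∀ (𝔫 : Ideal (𝓞 F)) (v : HeightOneSpectrum (𝓞 F)), ¬ v.asIdeal ∣ 𝔫 →
    ∀ (H : Finset (G F)) (z : G F), IsHeckeCosetSystem v H → IsScalarUniformizerAt v z →
    ∀ f : G F → ℂ, T5.IsTestFn 𝔫 τ f →
      (∀ d : ℕ, T5.IsTestFn 𝔫 τ (dStep589 v H z d f)) →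
      T5.IsEK R.μ f → T5.IsEK R.μ (T5.adjointFn f) →
      ∀ d : ℕ, T5.IsEK R.μ (dStep589 v H z d f) ∧
        T5.IsEK R.μ (T5.adjointFn (dStep589 v H z d f))

/-- **LEAF TQ.4 = D-OP for a type `τ`.**  `ST589.DOpC589` with `T5.trivType` replaced by an
arbitrary `τ`: on a continuous function `χ` which is right invariant under a level group prime
to `v` and is an eigenfunction of the Hecke operators at `v` with the eigenvalues `(a, b)`:
`R(dStep589 v H z d f) χ = satakePow d a b · R(f) χ`.  See the header. -/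
def DOpTC216 : Prop :=
  ∀ (τ : G F → ℂ) (R : Frame5 F), IsFrame5 R →
    ∀ (𝔫 𝔫₀ : Ideal (𝓞 F)), 𝔫 ≤ 𝔫₀ →
    ∀ v : HeightOneSpectrum (𝓞 F), ¬ v.asIdeal ∣ 𝔫 →
    ∀ (H : Finset (G F)) (z : G F), IsHeckeCosetSystem v H → IsScalarUniformizerAt v z →
    ∀ f : G F → ℂ, T5.IsTestFn 𝔫 τ f →
      (∀ d : ℕ, T5.IsTestFn 𝔫 τ (dStep589 v H z d f)) →
    ∀ (χ : G F → ℂ) (a b : ℂ), Continuous χ →
      (∀ u : G F, InLevelGroup 𝔫₀ u → ∀ g : G F, χ (g * u) = χ g) →
      IsHeckeEigenAt χ v a b →
      ∀ (d : ℕ) (x : G F),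
        T5.Rconv R.μ (dStep589 v H z d f) χ x = satakePow d a b * T5.Rconv R.μ f χ x

/-- **LEAF TQ.1 = PLACE over `ℚ` (number theory).**  Every finite place `w` of `F` lies over a
finite place `v` of `ℚ` with a residue degree `d`, and there is a prime number `p` in `v` and
in `w` with `N w = p ^ d`.
Proof.  `v = w ∩ ℤ` and `d` from `ST589.PlaceC589 ℚ F` (first clause;
`MQ298.isCycExt_of_imagQuad298`), `p` a prime number in `v` (`H732.exists_prime_mem_place732`),
`p ∈ w` (`H732.natCast_mem_of_placeOver732`), `N v = p` (`v = (p)`: `ℤ` is a principal ideal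
domain and `N (p) = |N_{ℚ/ℚ} p| = p`). -/
def PlaceQC216 : Prop :=
  IsImagQuad F → ∀ w : HeightOneSpectrum (𝓞 F),
    ∃ (p : ℕ) (v : HeightOneSpectrum (𝓞 ℚ)) (d : ℕ),
      p.Prime ∧ ((p : ℕ) : 𝓞 ℚ) ∈ v.asIdeal ∧ ((p : ℕ) : 𝓞 F) ∈ w.asIdeal ∧
        Ideal.absNorm w.asIdeal = p ^ d ∧ HasResDeg ℚ F v w d

/-- **NODE TQ.5 = SHAPE-T over `ℚ` (the local shape of the new triple).**  In the setting of
`PQ484.StepTQC484`: for `w ∉ S'` over `v` with residue degree `d`, Hecke coset systems and
scalar uniformisers at `w` and `v`, and a triple `(φ, f w0, f w1)` with the word-free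
properties: the triple `(dStep589 w H' z' 1 φ, dStep589 v H z d (f w0), dStep589 v H z d (f w1))`
is an average of pure tensors with the local condition `LocAQ801 c`, constant `1`.  The leaves
`ST589.DTestC589 F`, `DTestTC216 ℚ` are given.  Mirror of `ST589.ShapeTC589`; see the header. -/
def ShapeTQC216 : Prop :=
  ST589.DTestC589 F → DTestTC216 ℚ →
  HasSqrtNegThree F → IsImagQuad F →
    ∀ (Φ : HeckeEigensystem F ℂ) (B : L2Q.H60.L2QBase F),
      L2Q.H60.IsL2QBase Φ B → L2Q.H60.IsRamQ60 B →
      ∀ 𝔫 : Ideal (𝓞 ℚ), CQ57.IsLevQ57 (toBase962_732 B) 𝔫 →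
      ∀ (T₀ : Finset (HeightOneSpectrum (𝓞 ℚ)))
        (n n₀ : HeightOneSpectrum (𝓞 F) → ℕ) (m : HeightOneSpectrum (𝓞 ℚ) → ℕ),
        CQ57.IsLevFnQ57 (toBase962_732 B) 𝔫 T₀ n n₀ m →
        ∀ c : ℂ, c ≠ 0 →
        ∀ w : HeightOneSpectrum (𝓞 F), w ∉ (toBase962_732 B).S' →
        ∀ (v : HeightOneSpectrum (𝓞 ℚ)) (d : ℕ), HasResDeg ℚ F v w d →
        ∀ (H' : Finset (G F)) (z' : G F) (H : Finset (G ℚ)) (z : G ℚ),
          IsHeckeCosetSystem w H' → IsScalarUniformizerAt w z' →
          IsHeckeCosetSystem v H → IsScalarUniformizerAt v z →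
        ∀ (φ : G F → ℂ) (f : QWt → G ℚ → ℂ),
          IsGoodAQ484 (toBase962_732 B) 𝔫 c T₀ n m φ f →
          IsAvgPureQ801 (upI (K' := F) 𝔫) 𝔫 T₀ (LocAQ801 c T₀ n m) 1
            (dStep589 w H' z' 1 φ) (dStep589 v H z d (f QWt.w0))
            (dStep589 v H z d (f QWt.w1))

end OneField

/-! ## Appendix: the equation lemmas of the definitions of this file are realised HERE -/

theorem eqns_realised_stepTQ216 : True := by
  have _a0 := @DTestTC216.eq_1
  have _a1 := @DTestTC216.eq_def
  have _a2 := @DTestTC216.eq_unfold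
  have _b0 := @DEkTC216.eq_1
  have _b1 := @DEkTC216.eq_def
  have _b2 := @DEkTC216.eq_unfold
  have _c0 := @DOpTC216.eq_1
  have _c1 := @DOpTC216.eq_def
  have _c2 := @DOpTC216.eq_unfold
  have _d0 := @PlaceQC216.eq_1
  have _d1 := @PlaceQC216.eq_def
  have _d2 := @PlaceQC216.eq_unfold
  have _e0 := @ShapeTQC216.eq_1
  have _e1 := @ShapeTQC216.eq_def
  have _e2 := @ShapeTQC216.eq_unfold
  trivial

end Fermat.Agent.LT.T7.TQ216

end
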