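import Mathlib
import Fermat.Agent.LT.T7.H216.StepTQSpec

/-!
# Row LT, tower T7, node T7.L2Q.1.H2a.A.1 `PQ484.StepTQC484` (helper216, registry 2955): THE TOP

OFF-MAIN.  `stepTQC_of216`: the node from the leaves of `StepTQSpec.lean`, VERBATIM.  No hole,
nothing assumed.  Port of `ST589.stepTC_of589` (helper589).
-/

set_option autoImplicit false

open AutomorphicForm IsDedekindDomain NumberField MeasureTheory
open scoped ComplexConjugate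

noncomputable section

namespace Fermat.Agent.LT.T7.TQ216

open Fermat.Agent.LT.H556 Fermat.Agent.LT.H556.A0 Fermat.Agent.LT.T7 Fermat.Agent.LT.T7.H305
  Fermat.Agent.LT.T7.L2Q Fermat.Agent.LT.T7.H893 Fermat.Agent.LT.T7.H962
  Fermat.Agent.LT.T7.H732 Fermat.Agent.LT.T7.MQ298 Fermat.Agent.LT.T7.CQ801
  Fermat.Agent.LT.T7.ST589 Fermat.Agent.LT.T7.PQ484

attribute [local instance] Fermat.Agent.LT.T5.instMeasurableSpaceG

variable {F : Type} [Field F] [NumberField F]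

/-- The eigenvalue of `T_w` (by definition). -/
theorem ev_T216 (w : HeightOneSpectrum (𝓞 F)) (C : EigData F) : (Gen.T w).ev C = C.a w := rfl

/-- `T_w` lives outside `S` iff `w ∉ S` (by definition). -/
theorem out_T216 (S : Finset (HeightOneSpectrum (𝓞 F))) (w : HeightOneSpectrum (𝓞 F)) :
    (Gen.T w).Out S ↔ w ∉ S := Iff.rfl

/-- **THE TOP**: `PQ484.StepTQC484` from the leaves. -/
theorem stepTQC_of216 (hP : ST589.PlaceC589 ℚ F) (hPQ : PlaceQC216 F)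
    (hS' : ST589.SysC589 F) (hS : ST589.SysC589 ℚ)
    (hT' : ST589.DTestC589 F) (hT : DTestTC216 ℚ)
    (hE' : ST589.DEkC589 F) (hE : DEkTC216 ℚ)
    (hU' : ST589.DSuppC589 F) (hU : ST589.DSuppC589 ℚ)
    (hO' : ST589.DOpC589 F) (hO : DOpTC216 ℚ)
    (hSh : ShapeTQC216 F) : PQ484.StepTQC484 F := by
  intro h3 hF Φ B hB hRam 𝔫 hlev T₀ n n₀ m hexp c hc x hx hxout φ f hgood
  obtain ⟨w, rfl⟩ := hx
  have hw : w ∉ B.S' := (out_T216 _ w).1 hxout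
  obtain ⟨p, v, d, hp, hpv, hpw, hnorm, hvd⟩ := hPQ hF w
  have hw𝔑 : ¬ w.asIdeal ∣ upI (K' := F) 𝔫 := fun h => hw ((hlev.mem_S'_g w).2 h)
  have hw𝔑₀ : ¬ w.asIdeal ∣ B.𝔑₀ := fun h => hw ((hB.mem_S' w).2 h)
  have hv𝔫 : ¬ v.asIdeal ∣ 𝔫 := fun h => hw𝔑 (hP.2 𝔫 v w hvd.1 h)
  have hpS : p ∉ B.S := by
    intro hmem
    obtain ⟨_, w₁, hw₁, hpw₁⟩ := hB.under_exact p hmem
    exact hw (hB.fibre p hp w₁ w hpw₁ hpw hw₁)
  obtain ⟨H', z', hH', hz'⟩ := hS' w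
  obtain ⟨H, z, hH, hz⟩ := hS v
  have htest' := hT' (upI (K' := F) 𝔫) w hw𝔑 H' z' hH' hz' φ hgood.up_test
  have htest : ∀ t : QWt, ∀ e : ℕ, T5.IsTestFn 𝔫 t.type (dStep589 v H z e (f t)) :=
    fun t => hT t.type 𝔫 v hv𝔫 H z hH hz (f t) (hgood.dn_test t)
  have horb' : ∀ j : ℕ, j < 2 → B.o j ≠ w := fun j _ h => hw (h ▸ hB.orbit_level j)
  have horb : ∀ j : ℕ, j < 1 → (fun _ : ℕ => B.u) j ≠ v := fun j _ h =>
    hv𝔫 (h ▸ hlev.u_level)
  refine ⟨(dStep589 w H' z' 1 φ, fun t => dStep589 v H z d (f t)),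
    ⟨htest' 1, ?_, fun t => htest t d, ?_, ?_, ?_, ?_⟩, ⟨?_, ?_⟩⟩
  · exact hE' B.R' hB.frame' (upI (K' := F) 𝔫) w hw𝔑 H' z' hH' hz' φ hgood.up_test htest'
      hgood.up_ek.1 hgood.up_ek.2 1
  · intro t
    exact hE t.type B.R hB.frame 𝔫 v hv𝔫 H z hH hz (f t) (hgood.dn_test t) (htest t)
      (hgood.dn_ek t).1 (hgood.dn_ek t).2 d
  · exact hU' 2 B.o w horb' H' z' hH' hz' φ hgood.up_supp 1
  · intro t
    exact hU 1 (fun _ => B.u) v horb H z hH hz (f t) (hgood.dn_supp t) d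
  · exact hSh hT' hT h3 hF Φ B hB hRam 𝔫 hlev T₀ n n₀ m hexp c hc w hw v d hvd
      H' z' H z hH' hz' hH hz φ f hgood
  · intro χ C hχ y
    have h := hO' B.R' hB.frame' (upI (K' := F) 𝔫) B.𝔑₀ hlev.level_g w hw𝔑 H' z' hH' hz' φ
      hgood.up_test htest' χ (C.a w) (C.b w) hχ.inv.cusp.cont hχ.inv.cusp.aut.level_inv
      (hχ.hecke w hw𝔑₀) 1 y
    have h1 : satakePow 1 (C.a w) (C.b w) = C.a w := rfl
    rw [h1] at h
    exact h
  · intro t χ c' C hχ hbc y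
    have h := hO t.type B.R hB.frame 𝔫 𝔫 le_rfl v hv𝔫 H z hH hz (f t)
      (hgood.dn_test t) (htest t) χ (c'.a v) (c'.b v) hχ.inv.cusp.cont
      hχ.inv.cusp.aut.level_inv (hχ.hecke v hv𝔫) d y
    have hC := (hbc.1 p hp hpS v hpv w d hpw hnorm).1
    have hgoal : T5.Rconv B.R.μ (dStep589 v H z d (f t)) χ y
        = C.a w * T5.Rconv B.R.μ (f t) χ y := by
      rw [h, hC]
    exact hgoal

end Fermat.Agent.LT.T7.TQ216

end
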