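import Mathlib
import Fermat.Agent.LT.T7.H216.StepTQTop
import Fermat.Agent.LT.T7.H311.StepTDone
import Fermat.Agent.LT.T7.H846.StepSQ

/-!
# Row LT, tower T7, node T7.L2Q.1.H2a.A.1 `PQ484.StepTQC484` (helper216, registry 2955):
# THE NODE CLOSED, UNCONDITIONAL

OFF-MAIN.  Complete proofs, nothing assumed.

    stepTQC216 (F) : PQ484.StepTQC484 F                              (VERBATIM, UNCONDITIONAL)

= `stepTQC_of216` (`StepTQTop.lean`) applied to

* the closed leaves of the cubic cut of helper589, byte-identical copies: `H861.placeC861`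
  (helper861), `H805.sysC805` (helper805), `H32.dTestC32`, `H32.dEkC32`, `H32.dSuppC32`
  (helper32), `H176.dOpC176` (helper176);
* the leaves of `StepTQSpec.lean`, proved HERE:
  - `placeQC216_done` (TQ.1): `placeC861`, `H546.isCycExt_of_isImagQuad546c`,
    `H732.exists_prime_mem_place732`, `H846Q.absNorm_eq_prime846`;
  - `dTestTC216_done` (TQ.2): `H32.isTestFn_dStep32` (helper32: already for every type);
  - `dEkTC216_done` (TQ.3): `H32.isEKc_dStep32` (helper32: no type);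
  - `dOpTC216_done` (TQ.4): the proof of `H176.dOpC176` (helper176) for every type;
  - `shapeTQC216_done` (TQ.5, the node): PORT of `H311.shapeTC_of311` (helper311) with the
    pure tensors `MQ298.pureQ298` downstairs (TWO archimedean components, SAME finite
    components), `pureDQ216` = port of `H595.pureDC595` (helper595); `H311.sphOut_newT311` is
    used as it is (`K = ℚ`, `K' = F`, `ℓ = 2`); unramifiedness outside `S'`: `H644.unramQC644`;
    places: `H963.placesC963`; closed one-field leaves `H311.sphDC_closed311`,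
    `H90D.dContC311_h90`, `H90D.dSuppC311_h90`, `H90D.dIntC311_h90`, `H595.pureDC595`.

No definition of another file is unfolded by `unfold` / `simp` / `rw` (only `show`, `rfl` and
lemmas).
-/

set_option autoImplicit false
set_option linter.unusedSectionVars false
set_option linter.unusedVariables false

open AutomorphicForm IsDedekindDomain NumberField MeasureTheory
open scoped ComplexConjugate

noncomputable section

namespace Fermat.Agent.LT.T7.TQ216

open Fermat.Agent.LT.H556 Fermat.Agent.LT.H556.A0 Fermat.Agent.LT.T7 Fermat.Agent.LT.T7.H305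
  Fermat.Agent.LT.T7.L2Q Fermat.Agent.LT.T7.H893 Fermat.Agent.LT.T7.H962
  Fermat.Agent.LT.T7.H732 Fermat.Agent.LT.T7.MQ298 Fermat.Agent.LT.T7.CQ801
  Fermat.Agent.LT.T7.ST589 Fermat.Agent.LT.T7.PQ484 Fermat.Agent.LT.T7.B981.SS503
  Fermat.Agent.LT.T7.H311

attribute [local instance] Fermat.Agent.LT.T5.instMeasurableSpaceG

/-! ## 1. The small leaves -/

section Small

variable (F : Type) [Field F] [NumberField F]

/-- **LEAF TQ.1 `PlaceQC216`, PROVED.** -/
theorem placeQC216_done : PlaceQC216 F := by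
  intro hF w
  have hcyc : IsCycExt ℚ F 2 := H546.isCycExt_of_isImagQuad546c F hF
  obtain ⟨v, d, hvd⟩ := (H861.placeC861 (K := ℚ) (K' := F)).1 2 hcyc w
  obtain ⟨p, hp, hpv⟩ := exists_prime_mem_place732 v
  have hpw : ((p : ℕ) : 𝓞 F) ∈ w.asIdeal := natCast_mem_of_placeOver732 hvd.1 hpv
  have habs : Ideal.absNorm w.asIdeal = p ^ d := by
    rw [hvd.2, H846Q.absNorm_eq_prime846 hp hpv]
  exact ⟨p, v, d, hp, hpv, hpw, habs, hvd⟩

/-- **LEAF TQ.2 `DTestTC216`, PROVED** (helper32). -/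
theorem dTestTC216_done : DTestTC216 F :=
  fun _ _ _ hv _ _ hH hz _ hf d => H32.isTestFn_dStep32 hv hH hz hf d

/-- **LEAF TQ.3 `DEkTC216`, PROVED** (helper32). -/
theorem dEkTC216_done : DEkTC216 F := by
  intro τ R hR 𝔫 v _ H z _ _ f hf _ h1 h2 d
  have h := H32.isEKc_dStep32 hR.frame v H z (f := f) ⟨hf.cont, hf.supp, h1, h2⟩ d
  exact ⟨h.2.2.1, h.2.2.2⟩

/-- **LEAF TQ.4 `DOpTC216`, PROVED** (the proof of `H176.dOpC176`, helper176). -/
theorem dOpTC216_done : DOpTC216 F := by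
  intro τ R hR 𝔫 𝔫₀ hle v hv H z hH hz f hf hfd χ a b hχc hχinv hχe d x
  have hF := hR.frame
  have : R.μ.IsHaarMeasure := hF.haar
  have key : ∀ d : ℕ,
      (T5.Rconv R.μ (dStep589 v H z d f) χ x = satakePow d a b * T5.Rconv R.μ f χ x) ∧
      (T5.Rconv R.μ (dStep589 v H z (d + 1) f) χ x
        = satakePow (d + 1) a b * T5.Rconv R.μ f χ x) := by
    intro d
    induction d with
    | zero =>
      refine ⟨?_, ?_⟩
      · show ∫ y, (2 * f y) * χ (x * y) ∂(R.μ) = satakePow 0 a b * ∫ y, f y * χ (x * y) ∂(R.μ)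
        rw [satakePow_zero, ← integral_const_mul]
        refine integral_congr_ae (Filter.Eventually.of_forall fun y => ?_)
        show (2 * f y) * χ (x * y) = 2 * (f y * χ (x * y))
        ring
      · rw [satakePow_one]
        exact H176.rconv_tStep176 hF hle hv hH hz hχc hχinv hχe hf.cont hf.supp
          hf.inv.level_right x
    | succ d ih =>
      refine ⟨ih.2, ?_⟩
      have h1 := hfd (d + 1)
      have h0 := hfd d
      have e : dStep589 v H z (d + 1 + 1) f = fun g =>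
          tStep589 v H z (dStep589 v H z (d + 1) f) g - sStep589 z (dStep589 v H z d f) g :=
        rfl
      have hT := H176.rconv_tStep176 hF hle hv hH hz hχc hχinv hχe h1.cont h1.supp
        h1.inv.level_right x
      have hS := H176.rconv_sStep176 hF hz hχe (dStep589 v H z d f) x
      have hiT := H176.integrable_tStep176 (μ := R.μ) (v := v) (H := H) (z := z) hχc h1.cont
        h1.supp x
      have hiS := H176.integrable_sStep176 (μ := R.μ) (z := z) hχc h0.cont h0.supp x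
      have e2 : T5.Rconv R.μ (dStep589 v H z (d + 1 + 1) f) χ x
          = T5.Rconv R.μ (tStep589 v H z (dStep589 v H z (d + 1) f)) χ x
            - T5.Rconv R.μ (sStep589 z (dStep589 v H z d f)) χ x := by
        rw [e]
        show ∫ y, (tStep589 v H z (dStep589 v H z (d + 1) f) y
            - sStep589 z (dStep589 v H z d f) y) * χ (x * y) ∂(R.μ)
          = ∫ y, tStep589 v H z (dStep589 v H z (d + 1) f) y * χ (x * y) ∂(R.μ)
            - ∫ y, sStep589 z (dStep589 v H z d f) y * χ (x * y) ∂(R.μ)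
        rw [← integral_sub hiT hiS]
        refine integral_congr_ae (Filter.Eventually.of_forall fun y => ?_)
        show (tStep589 v H z (dStep589 v H z (d + 1) f) y
            - sStep589 z (dStep589 v H z d f) y) * χ (x * y) = _
        ring
      rw [e2, hT, hS, ih.1, ih.2, satakePow_add_two]
      ring
  exact (key d).1

end Small

/-! ## 2. The steps of a pure tensor over `ℚ` -/

section PureDQ

/-- The function `h ↦ θ (h_v) * P₁ h` over `ℚ`. -/
def qFnQ216 (v : HeightOneSpectrum (𝓞 ℚ)) (P₁ : G ℚ → ℂ)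
    (θ : GL (Fin 2) (v.adicCompletion ℚ) → ℂ) : G ℚ → ℂ :=
  fun h => θ (finGL305 v h) * P₁ h

open Classical in
/-- FACTORISATION of a pure tensor over `ℚ` in the component at `v ∈ S`. -/
theorem pureQ_fact216 {S : Finset (HeightOneSpectrum (𝓞 ℚ))} {v : HeightOneSpectrum (𝓞 ℚ)}
    (hvS : v ∈ S)
    (g₀ : ∀ v : HeightOneSpectrum (𝓞 ℚ), GL (Fin 2) (v.adicCompletion ℚ) → ℂ)
    (Fr : GL (Fin 2) ℝ → ℂ)
    (ψ : GL (Fin 2) (v.adicCompletion ℚ) → ℂ) (h : G ℚ) :
    pureQ298 S (Function.update g₀ v ψ) Fr h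
      = ψ (finGL305 v h) * pureQ298 S (Function.update g₀ v (fun _ => 1)) Fr h := by
  by_cases hO : OutT305 S h
  · rw [H846Q.pureQ_pos846 _ _ hO, H846Q.pureQ_pos846 _ _ hO]
    have h1 : ∏ v' ∈ S, Function.update g₀ v ψ v' (finGL305 v' h)
        = ψ (finGL305 v h) * ∏ v' ∈ S.erase v, g₀ v' (finGL305 v' h) := by
      rw [← Finset.mul_prod_erase S _ hvS, Function.update_self]
      congr 1
      refine Finset.prod_congr rfl fun v' hv' => ?_
      rw [Function.update_of_ne (Finset.ne_of_mem_erase hv')]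
    have h2 : ∏ v' ∈ S, Function.update g₀ v (fun _ => (1 : ℂ)) v' (finGL305 v' h)
        = ∏ v' ∈ S.erase v, g₀ v' (finGL305 v' h) := by
      rw [← Finset.mul_prod_erase S _ hvS, Function.update_self, one_mul]
      refine Finset.prod_congr rfl fun v' hv' => ?_
      rw [Function.update_of_ne (Finset.ne_of_mem_erase hv')]
    rw [h1, h2, mul_assoc]
  · rw [H846Q.pureQ_neg846 _ _ hO, H846Q.pureQ_neg846 _ _ hO, mul_zero]

open Classical in
/-- The pure tensor over `ℚ` with the component `1` at `v ∈ S` is invariant under the right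
translations by the elements with trivial components outside `v`. -/
theorem pureQ_one_mul216 {S : Finset (HeightOneSpectrum (𝓞 ℚ))} {v : HeightOneSpectrum (𝓞 ℚ)}
    (hvS : v ∈ S)
    (g₀ : ∀ v : HeightOneSpectrum (𝓞 ℚ), GL (Fin 2) (v.adicCompletion ℚ) → ℂ)
    (Fr : GL (Fin 2) ℝ → ℂ) {y : G ℚ}
    (hfin : ∀ v' : HeightOneSpectrum (𝓞 ℚ), v' ≠ v → finGL305 v' y = 1)
    (hinf : reGLQ298 y = 1) (h : G ℚ) :
    pureQ298 S (Function.update g₀ v (fun _ => 1)) Fr (h * y)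
      = pureQ298 S (Function.update g₀ v (fun _ => 1)) Fr h := by
  have hf : ∀ v' : HeightOneSpectrum (𝓞 ℚ), v' ≠ v →
      finGL305 v' (h * y) = finGL305 v' h := by
    intro v' hv'
    rw [map_mul, hfin v' hv', mul_one]
  have hi : reGLQ298 (h * y) = reGLQ298 h := by
    rw [map_mul, hinf, mul_one]
  have hOut : OutT305 S (h * y) ↔ OutT305 S h := by
    rw [H802.outT_iff802, H802.outT_iff802]
    refine forall_congr' fun v' => imp_congr_right fun hv'S => ?_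
    have hne : v' ≠ v := fun e => hv'S (e ▸ hvS)
    rw [hf v' hne]
  by_cases hO : OutT305 S h
  · rw [H846Q.pureQ_pos846 _ _ hO, H846Q.pureQ_pos846 _ _ (hOut.2 hO), hi]
    congr 1
    refine Finset.prod_congr rfl fun v' _ => ?_
    by_cases hv' : v' = v
    · subst hv'
      rw [Function.update_self]
    · rw [Function.update_of_ne hv', hf v' hv']
  · rw [H846Q.pureQ_neg846 _ _ hO, H846Q.pureQ_neg846 _ _ (fun hO' => hO (hOut.1 hO'))]

/-- The value of `qFnQ216` at a translate. -/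
theorem qFnQ_mul216 (v : HeightOneSpectrum (𝓞 ℚ)) (P₁ : G ℚ → ℂ)
    (hP₁ : ∀ (y : G ℚ), (∀ v' : HeightOneSpectrum (𝓞 ℚ), v' ≠ v → finGL305 v' y = 1) →
      reGLQ298 y = 1 → ∀ h : G ℚ, P₁ (h * y) = P₁ h)
    (θ : GL (Fin 2) (v.adicCompletion ℚ) → ℂ) {y : G ℚ}
    (hfin : ∀ v' : HeightOneSpectrum (𝓞 ℚ), v' ≠ v → finGL305 v' y = 1)
    (hinf : reGLQ298 y = 1) (h : G ℚ) :
    qFnQ216 v P₁ θ (h * y) = θ (finGL305 v h * finGL305 v y) * P₁ h := by
  show θ (finGL305 v (h * y)) * P₁ (h * y) = _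
  rw [map_mul, hP₁ y hfin hinf h]

theorem finQ_triv_of_local216 {v : HeightOneSpectrum (𝓞 ℚ)} {y : G ℚ}
    (hy : IsLocalAtFin v y) :
    ∀ v' : HeightOneSpectrum (𝓞 ℚ), v' ≠ v → finGL305 v' y = 1 :=
  fun v' hv' => H802.finGL_eq_one802 (hy.2 v' hv')

theorem reQ_triv_of_local216 {v : HeightOneSpectrum (𝓞 ℚ)} {y : G ℚ}
    (hy : IsLocalAtFin v y) : reGLQ298 y = 1 :=
  H846Q.reGL_eq_one846 (hy.1 Rat.infinitePlace)

/-- The step of `S_v` on the functions `qFnQ216`. -/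
theorem sStep_qFnQ216 (v : HeightOneSpectrum (𝓞 ℚ)) (P₁ : G ℚ → ℂ)
    (hP₁ : ∀ (y : G ℚ), (∀ v' : HeightOneSpectrum (𝓞 ℚ), v' ≠ v → finGL305 v' y = 1) →
      reGLQ298 y = 1 → ∀ h : G ℚ, P₁ (h * y) = P₁ h)
    {z : G ℚ} (hz : IsLocalAtFin v z) (θ : GL (Fin 2) (v.adicCompletion ℚ) → ℂ) :
    sStep589 z (qFnQ216 v P₁ θ) = qFnQ216 v P₁ (locS311 v z θ) := by
  funext h
  have hfin : ∀ v' : HeightOneSpectrum (𝓞 ℚ), v' ≠ v → finGL305 v' z⁻¹ = 1 := by
    intro v' hv'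
    rw [map_inv, finQ_triv_of_local216 hz v' hv', inv_one]
  have hinf : reGLQ298 z⁻¹ = 1 := by
    rw [map_inv, reQ_triv_of_local216 hz, inv_one]
  show qFnQ216 v P₁ θ (h * z⁻¹) = θ (finGL305 v h * (finGL305 v z)⁻¹) * P₁ h
  rw [qFnQ_mul216 v P₁ hP₁ θ hfin hinf h, map_inv]

/-- The step of `T_v` on the functions `qFnQ216`. -/
theorem tStep_qFnQ216 (v : HeightOneSpectrum (𝓞 ℚ)) (P₁ : G ℚ → ℂ)
    (hP₁ : ∀ (y : G ℚ), (∀ v' : HeightOneSpectrum (𝓞 ℚ), v' ≠ v → finGL305 v' y = 1) →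
      reGLQ298 y = 1 → ∀ h : G ℚ, P₁ (h * y) = P₁ h)
    {H : Finset (G ℚ)} (hH : ∀ h ∈ H, IsLocalAtFin v h)
    {z : G ℚ} (hz : IsLocalAtFin v z) (θ : GL (Fin 2) (v.adicCompletion ℚ) → ℂ) :
    tStep589 v H z (qFnQ216 v P₁ θ) = qFnQ216 v P₁ (locT311 v H z θ) := by
  funext h
  show ((Real.sqrt (Ideal.absNorm v.asIdeal : ℝ) : ℝ) : ℂ)⁻¹
        * ∑ h' ∈ H, qFnQ216 v P₁ θ (h * z⁻¹ * h')
      = (((Real.sqrt (Ideal.absNorm v.asIdeal : ℝ) : ℝ) : ℂ)⁻¹
        * ∑ h' ∈ H, θ (finGL305 v h * (finGL305 v z)⁻¹ * finGL305 v h')) * P₁ h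
  rw [mul_assoc, Finset.sum_mul]
  congr 1
  refine Finset.sum_congr rfl fun h' hh' => ?_
  have hfin : ∀ v' : HeightOneSpectrum (𝓞 ℚ), v' ≠ v → finGL305 v' (z⁻¹ * h') = 1 := by
    intro v' hv'
    rw [map_mul, map_inv, finQ_triv_of_local216 hz v' hv',
      finQ_triv_of_local216 (hH h' hh') v' hv', inv_one, mul_one]
  have hinf : reGLQ298 (z⁻¹ * h') = 1 := by
    rw [map_mul, map_inv, reQ_triv_of_local216 hz, reQ_triv_of_local216 (hH h' hh'),
      inv_one, mul_one]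
  rw [mul_assoc h z⁻¹ h', qFnQ_mul216 v P₁ hP₁ θ hfin hinf h, map_mul, map_inv, mul_assoc]

/-- The step of the Dickson polynomial on the functions `qFnQ216`. -/
theorem dStep_qFnQ216 (v : HeightOneSpectrum (𝓞 ℚ)) (P₁ : G ℚ → ℂ)
    (hP₁ : ∀ (y : G ℚ), (∀ v' : HeightOneSpectrum (𝓞 ℚ), v' ≠ v → finGL305 v' y = 1) →
      reGLQ298 y = 1 → ∀ h : G ℚ, P₁ (h * y) = P₁ h)
    {H : Finset (G ℚ)} (hH : ∀ h ∈ H, IsLocalAtFin v h)
    {z : G ℚ} (hz : IsLocalAtFin v z) (d : ℕ) (θ : GL (Fin 2) (v.adicCompletion ℚ) → ℂ) :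
    dStep589 v H z d (qFnQ216 v P₁ θ) = qFnQ216 v P₁ (locD311 v H z d θ) := by
  induction d using Nat.twoStepInduction with
  | zero =>
    rw [H595.dStep_zero595, H595.locD_zero595]
    funext h
    show 2 * (θ (finGL305 v h) * P₁ h) = 2 * θ (finGL305 v h) * P₁ h
    rw [mul_assoc]
  | one =>
    rw [H595.dStep_one595, H595.locD_one595]
    exact tStep_qFnQ216 v P₁ hP₁ hH hz θ
  | more d ih0 ih1 =>
    rw [H595.dStep_add_two595, H595.locD_add_two595, ih0, ih1,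
      tStep_qFnQ216 v P₁ hP₁ hH hz, sStep_qFnQ216 v P₁ hP₁ hz]
    funext h
    show locT311 v H z (locD311 v H z (d + 1) θ) (finGL305 v h) * P₁ h
        - locS311 v z (locD311 v H z d θ) (finGL305 v h) * P₁ h
      = (locT311 v H z (locD311 v H z (d + 1) θ) (finGL305 v h)
          - locS311 v z (locD311 v H z d θ) (finGL305 v h)) * P₁ h
    rw [sub_mul]

open Classical in
/-- **PURE-D over `ℚ`** (port of `H595.pureDC595`): the step of a pure tensor over `ℚ` is the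
pure tensor with the component at `v` replaced by its local step. -/
theorem pureDQ216 (T P : Finset (HeightOneSpectrum (𝓞 ℚ)))
    (f₀ : ∀ v : HeightOneSpectrum (𝓞 ℚ), GL (Fin 2) (v.adicCompletion ℚ) → ℂ)
    (Fr : GL (Fin 2) ℝ → ℂ) (v : HeightOneSpectrum (𝓞 ℚ)) (hvP : v ∈ P)
    (H : Finset (G ℚ)) (z : G ℚ) (hH : IsHeckeCosetSystem v H)
    (hz : IsScalarUniformizerAt v z) (d : ℕ) (h : G ℚ) :
    pureQ298 (T ∪ P)
        (Function.update (extU503 T f₀) v (locD311 v H z d (extU503 T f₀ v))) Fr h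
      = dStep589 v H z d (pureQ298 T f₀ Fr) h := by
  have hvS : v ∈ T ∪ P := Finset.mem_union_right T hvP
  have hHl : ∀ h' ∈ H, IsLocalAtFin v h' := fun h' hh' => (hH.2.1 h' hh').1
  have hzl : IsLocalAtFin v z := hz.1
  have hP₁ : ∀ (y : G ℚ), (∀ v' : HeightOneSpectrum (𝓞 ℚ), v' ≠ v → finGL305 v' y = 1) →
      reGLQ298 y = 1 → ∀ h : G ℚ,
      pureQ298 (T ∪ P) (Function.update (extU503 T f₀) v (fun _ => 1)) Fr (h * y)
        = pureQ298 (T ∪ P) (Function.update (extU503 T f₀) v (fun _ => 1)) Fr h :=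
    fun y hfin hinf h => pureQ_one_mul216 hvS _ Fr hfin hinf h
  have hbase : pureQ298 T f₀ Fr
      = qFnQ216 v (pureQ298 (T ∪ P) (Function.update (extU503 T f₀) v (fun _ => 1)) Fr)
          (extU503 T f₀ v) := by
    funext y
    show pureQ298 T f₀ Fr y = extU503 T f₀ v (finGL305 v y)
      * pureQ298 (T ∪ P) (Function.update (extU503 T f₀) v (fun _ => 1)) Fr y
    rw [← pureQ_fact216 hvS (extU503 T f₀) Fr (extU503 T f₀ v) y,
      Function.update_eq_self]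
    exact (H846Q.pureQ_extU846 Finset.subset_union_left f₀ Fr y).symm
  rw [hbase, dStep_qFnQ216 v _ hP₁ hHl hzl d (extU503 T f₀ v)]
  exact pureQ_fact216 hvS (extU503 T f₀) Fr _ h

end PureDQ

/-! ## 3. The local shape of the new triple -/

section Shape

variable {F : Type} [Field F] [NumberField F]

open Classical in
/-- **The local condition of the new components** (`LocAQ801`). -/
theorem locAQ_newT216 (hSD : SphDC311 ℚ) (hSD' : SphDC311 F) (hUn : UnitSphC503) (c : ℂ)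
    {T₀ T : Finset (HeightOneSpectrum (𝓞 ℚ))} {T' : Finset (HeightOneSpectrum (𝓞 F))}
    {n : HeightOneSpectrum (𝓞 F) → ℕ} {m : HeightOneSpectrum (𝓞 ℚ) → ℕ}
    (hT₀ : T₀ ⊆ T) (hOver : IsOver305 T T')
    {φ₀ : ∀ w : HeightOneSpectrum (𝓞 F), GL (Fin 2) (w.adicCompletion F) → ℂ}
    {Φ : InfinitePlace F → GL (Fin 2) ℂ → ℂ}
    {f₀ : ∀ v : HeightOneSpectrum (𝓞 ℚ), GL (Fin 2) (v.adicCompletion ℚ) → ℂ}
    {F0 F1 : GL (Fin 2) ℝ → ℂ}
    (hloc : LocAQ801 c T₀ n m T φ₀ Φ f₀ F0 F1)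
    {v : HeightOneSpectrum (𝓞 ℚ)} {w : HeightOneSpectrum (𝓞 F)} {d : ℕ}
    (hv0 : v ∉ T₀) (hres : HasResDeg ℚ F v w d)
    (hinert : (∀ w' : HeightOneSpectrum (𝓞 F), PlaceOver ℚ F v w' → w' = w) → d = 2)
    (hsplit : ∀ u : ℕ → HeightOneSpectrum (𝓞 F), (∀ j : ℕ, PlaceOver ℚ F v (u j)) →
      (∀ j j' : ℕ, j < 2 → j' < 2 → u j = u j' → j = j') →
      d = 1 ∧ ∃ j : ℕ, j < 2 ∧ u j = w)
    {H' : Finset (G F)} {z' : G F} {H : Finset (G ℚ)} {z : G ℚ}
    (hH' : IsHeckeCosetSystem w H') (hz' : IsScalarUniformizerAt w z')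
    (hH : IsHeckeCosetSystem v H) (hz : IsScalarUniformizerAt v z) :
    LocAQ801 c T₀ n m (T ∪ {v})
      (Function.update (extU503 T' φ₀) w (locD311 w H' z' 1 (extU503 T' φ₀ w))) Φ
      (Function.update (extU503 T f₀) v (locD311 v H z d (extU503 T f₀ v))) F0 F1 := by
  have hvw : PlaceOver ℚ F v w := hres.1
  obtain ⟨h1, h2, h3, h4⟩ := hloc
  refine ⟨?_, ?_, ?_, h4⟩
  · intro v' hv'
    have hne : v' ≠ v := fun h => hv0 (h ▸ hv')
    rw [Function.update_of_ne hne, extU_of_mem503 f₀ (hT₀ hv')]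
    exact h1 v' hv'
  · intro v' hv' w' hw'
    have hne : w' ≠ w := fun h =>
      hv0 ((H557.placeOver_unique_557 (h ▸ hw') hvw) ▸ hv')
    have hwT : w' ∈ T' := (hOver w').2 ⟨v', hT₀ hv', hw'⟩
    rw [Function.update_of_ne hne, extU_of_mem503 φ₀ hwT]
    exact h2 v' hv' w' hw'
  · exact sphOut_newT311 hSD hSD' hUn 2 hOver h3 hv0 hres hinert hsplit hH' hz' hH hz

open Classical in
/-- **The new triple is an average of pure tensors with the local condition `LocAQ801`.** -/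
theorem shapeQ_newT216 (hPu' : PureDC311 F) (hSD' : SphDC311 F) (hSD : SphDC311 ℚ)
    (hC' : DContC311 F) (hC : DContC311 ℚ) (hS' : DSuppC311 F) (hS : DSuppC311 ℚ)
    (hI' : DIntC311 F) (hI : DIntC311 ℚ) (hUn : UnitSphC503)
    (hDT' : DTestC589 F) (hDT : DTestTC216 ℚ)
    (𝔫 : Ideal (𝓞 ℚ)) (c : ℂ)
    {T₀ : Finset (HeightOneSpectrum (𝓞 ℚ))}
    {n : HeightOneSpectrum (𝓞 F) → ℕ} {m : HeightOneSpectrum (𝓞 ℚ) → ℕ}
    {φ : G F → ℂ} {f0 f1 : G ℚ → ℂ}
    (hshape : IsAvgPureQ801 (upI (K' := F) 𝔫) 𝔫 T₀ (LocAQ801 c T₀ n m) 1 φ f0 f1)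
    {v : HeightOneSpectrum (𝓞 ℚ)} {w : HeightOneSpectrum (𝓞 F)} {d : ℕ}
    (P : Finset (HeightOneSpectrum (𝓞 F)))
    (hP : ∀ w' : HeightOneSpectrum (𝓞 F), w' ∈ P ↔ PlaceOver ℚ F v w')
    (hv0 : v ∉ T₀) (hres : HasResDeg ℚ F v w d)
    (hinert : (∀ w' : HeightOneSpectrum (𝓞 F), PlaceOver ℚ F v w' → w' = w) → d = 2)
    (hsplit : ∀ u : ℕ → HeightOneSpectrum (𝓞 F), (∀ j : ℕ, PlaceOver ℚ F v (u j)) →
      (∀ j j' : ℕ, j < 2 → j' < 2 → u j = u j' → j = j') →
      d = 1 ∧ ∃ j : ℕ, j < 2 ∧ u j = w)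
    (hvn : ¬ v.asIdeal ∣ 𝔫) (hwn : ¬ w.asIdeal ∣ upI (K' := F) 𝔫)
    {H' : Finset (G F)} {z' : G F} {H : Finset (G ℚ)} {z : G ℚ}
    (hH' : IsHeckeCosetSystem w H') (hz' : IsScalarUniformizerAt w z')
    (hH : IsHeckeCosetSystem v H) (hz : IsScalarUniformizerAt v z) :
    IsAvgPureQ801 (upI (K' := F) 𝔫) 𝔫 T₀ (LocAQ801 c T₀ n m) 1
      (dStep589 w H' z' 1 φ) (dStep589 v H z d f0) (dStep589 v H z d f1) := by
  obtain ⟨Ω, i1, i2, i3, i4, i5, i6, ν, i7, T, T', φ₀, Φc, f₀, F0, F1, hA, hB1, hB2, hB3,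
    hC1, hC2, hC3, ⟨C', hC'c, hD1⟩, ⟨C0, hC0, hD2⟩, ⟨C1, hC1', hD3⟩, hE1, hE2, hE3⟩ := hshape
  have hvw : PlaceOver ℚ F v w := hres.1
  have hwP : w ∈ P := (hP w).2 hvw
  have hvS : v ∈ ({v} : Finset (HeightOneSpectrum (𝓞 ℚ))) := Finset.mem_singleton_self v
  -- the key identities
  have hup : ∀ (a : Ω) (h : G F),
      pure305 (T' a ∪ P) (Function.update (extU503 (T' a) (φ₀ a)) w
          (locD311 w H' z' 1 (extU503 (T' a) (φ₀ a) w))) (Φc a) h
        = dStep589 w H' z' 1 (pure305 (T' a) (φ₀ a) (Φc a)) h := fun a h =>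
    hPu' (T' a) P (φ₀ a) (Φc a) w hwP H' z' hH' hz' 1 h
  have hdn : ∀ (Fr : Ω → GL (Fin 2) ℝ → ℂ) (a : Ω) (h : G ℚ),
      pureQ298 (T a ∪ {v}) (Function.update (extU503 (T a) (f₀ a)) v
          (locD311 v H z d (extU503 (T a) (f₀ a) v))) (Fr a) h
        = dStep589 v H z d (pureQ298 (T a) (f₀ a) (Fr a)) h := fun Fr a h =>
    pureDQ216 (T a) {v} (f₀ a) (Fr a) v hvS H z hH hz d h
  have hone : ∀ (Fr : Ω → GL (Fin 2) ℝ → ℂ) (a : Ω),
      (fun h => (1 : ℂ) * pureQ298 (T a) (f₀ a) (Fr a) h)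
        = pureQ298 (T a) (f₀ a) (Fr a) := fun Fr a => funext fun h => one_mul _
  have hcont1 : ∀ Fr : Ω → GL (Fin 2) ℝ → ℂ,
      Continuous (fun p : Ω × G ℚ => (1 : ℂ) * pureQ298 (T p.1) (f₀ p.1) (Fr p.1) p.2) →
      Continuous (fun p : Ω × G ℚ => pureQ298 (T p.1) (f₀ p.1) (Fr p.1) p.2) := by
    intro Fr hCc
    have e : (fun p : Ω × G ℚ => pureQ298 (T p.1) (f₀ p.1) (Fr p.1) p.2)
        = fun p : Ω × G ℚ => (1 : ℂ) * pureQ298 (T p.1) (f₀ p.1) (Fr p.1) p.2 :=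
      funext fun p => (one_mul _).symm
    rw [e]
    exact hCc
  -- the clauses downstairs, for the two archimedean components
  have htest : ∀ (τ : G ℚ → ℂ) (Fr : Ω → GL (Fin 2) ℝ → ℂ),
      (∀ a : Ω, T5.IsTestFn 𝔫 τ (fun h => (1 : ℂ) * pureQ298 (T a) (f₀ a) (Fr a) h)) →
      ∀ a : Ω, T5.IsTestFn 𝔫 τ (fun h => (1 : ℂ) * pureQ298 (T a ∪ {v})
        (Function.update (extU503 (T a) (f₀ a)) v
          (locD311 v H z d (extU503 (T a) (f₀ a) v))) (Fr a) h) := by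
    intro τ Fr hB a
    have h : (fun h => (1 : ℂ) * pureQ298 (T a ∪ {v})
          (Function.update (extU503 (T a) (f₀ a)) v
            (locD311 v H z d (extU503 (T a) (f₀ a) v))) (Fr a) h)
        = dStep589 v H z d (fun h => (1 : ℂ) * pureQ298 (T a) (f₀ a) (Fr a) h) := by
      rw [hone Fr a]
      funext h
      rw [one_mul]
      exact hdn Fr a h
    rw [h]
    exact hDT τ 𝔫 v hvn H z hH hz _ (hB a) d
  have hcont : ∀ Fr : Ω → GL (Fin 2) ℝ → ℂ,
      Continuous (fun p : Ω × G ℚ => (1 : ℂ) * pureQ298 (T p.1) (f₀ p.1) (Fr p.1) p.2) →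
      Continuous (fun p : Ω × G ℚ => (1 : ℂ) * pureQ298 (T p.1 ∪ {v})
        (Function.update (extU503 (T p.1) (f₀ p.1)) v
          (locD311 v H z d (extU503 (T p.1) (f₀ p.1) v))) (Fr p.1) p.2) := by
    intro Fr hCc
    have h : (fun p : Ω × G ℚ => (1 : ℂ) * pureQ298 (T p.1 ∪ {v})
          (Function.update (extU503 (T p.1) (f₀ p.1)) v
            (locD311 v H z d (extU503 (T p.1) (f₀ p.1) v))) (Fr p.1) p.2)
        = fun p : Ω × G ℚ => dStep589 v H z d (pureQ298 (T p.1) (f₀ p.1) (Fr p.1)) p.2 :=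
      funext fun p => by
        rw [one_mul]
        exact hdn Fr p.1 p.2
    rw [h]
    exact hC Ω (fun a => pureQ298 (T a) (f₀ a) (Fr a)) (hcont1 Fr hCc) v H z d
  have hsupp : ∀ Fr : Ω → GL (Fin 2) ℝ → ℂ,
      (∃ C : Set (G ℚ), IsCompact C ∧
        ∀ (a : Ω) (h : G ℚ), pureQ298 (T a) (f₀ a) (Fr a) h ≠ 0 → h ∈ C) →
      ∃ C : Set (G ℚ), IsCompact C ∧
        ∀ (a : Ω) (h : G ℚ), pureQ298 (T a ∪ {v})
          (Function.update (extU503 (T a) (f₀ a)) v
            (locD311 v H z d (extU503 (T a) (f₀ a) v))) (Fr a) h ≠ 0 → h ∈ C := by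
    rintro Fr ⟨C, hCc, hD⟩
    obtain ⟨C₁, hC₁, hs⟩ := hS Ω (fun a => pureQ298 (T a) (f₀ a) (Fr a)) C hCc hD v H z d
    refine ⟨C₁, hC₁, fun a h hne => hs a h ?_⟩
    rw [hdn Fr a h] at hne
    exact hne
  have hint : ∀ (Fr : Ω → GL (Fin 2) ℝ → ℂ) (f : G ℚ → ℂ),
      Continuous (fun p : Ω × G ℚ => (1 : ℂ) * pureQ298 (T p.1) (f₀ p.1) (Fr p.1) p.2) →
      (∀ h : G ℚ, f h = ∫ a, (1 : ℂ) * pureQ298 (T a) (f₀ a) (Fr a) h ∂ν) →
      ∀ h : G ℚ, dStep589 v H z d f h = ∫ a, (1 : ℂ) * pureQ298 (T a ∪ {v})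
        (Function.update (extU503 (T a) (f₀ a)) v
          (locD311 v H z d (extU503 (T a) (f₀ a) v))) (Fr a) h ∂ν := by
    intro Fr f hCc hE h
    have hE' : ∀ h : G ℚ, f h = ∫ a, pureQ298 (T a) (f₀ a) (Fr a) h ∂ν := by
      intro h
      rw [hE h]
      exact integral_congr_ae (Filter.Eventually.of_forall fun a => one_mul _)
    rw [hI Ω ν (fun a => pureQ298 (T a) (f₀ a) (Fr a)) (hcont1 Fr hCc) f hE' v H z d h]
    refine integral_congr_ae (Filter.Eventually.of_forall fun a => ?_)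
    show _ = (1 : ℂ) * _
    rw [one_mul]
    exact (hdn Fr a h).symm
  refine ⟨Ω, i1, i2, i3, i4, i5, i6, ν, i7, fun a => T a ∪ {v}, fun a => T' a ∪ P,
    fun a => Function.update (extU503 (T' a) (φ₀ a)) w
      (locD311 w H' z' 1 (extU503 (T' a) (φ₀ a) w)), Φc,
    fun a => Function.update (extU503 (T a) (f₀ a)) v
      (locD311 v H z d (extU503 (T a) (f₀ a) v)), F0, F1,
    ?_, ?_, htest _ F0 hB2, htest _ F1 hB3, ?_, hcont F0 hC2, hcont F1 hC3, ?_,
    hsupp F0 ⟨C0, hC0, hD2⟩, hsupp F1 ⟨C1, hC1', hD3⟩, ?_, hint F0 f0 hC2 hE2,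
    hint F1 f1 hC3 hE3⟩
  · -- the local conditions
    intro a
    obtain ⟨hT₀, hOver, hloc⟩ := hA a
    refine ⟨fun x hx => Finset.mem_union_left _ (hT₀ hx), ?_, ?_⟩
    · intro w'
      constructor
      · intro hw'
        rcases Finset.mem_union.1 hw' with h | h
        · obtain ⟨v', hv', hvw'⟩ := (hOver w').1 h
          exact ⟨v', Finset.mem_union_left _ hv', hvw'⟩
        · exact ⟨v, Finset.mem_union_right _ hvS, (hP w').1 h⟩
      · rintro ⟨v', hv', hvw'⟩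
        rcases Finset.mem_union.1 hv' with h | h
        · exact Finset.mem_union_left _ ((hOver w').2 ⟨v', h, hvw'⟩)
        · have hvv : v' = v := Finset.mem_singleton.1 h
          exact Finset.mem_union_right _ ((hP w').2 (hvv ▸ hvw'))
    · exact locAQ_newT216 hSD hSD' hUn c hT₀ hOver hloc hv0 hres hinert hsplit
        hH' hz' hH hz
  · -- the members upstairs are test functions
    intro a
    have h : pure305 (T' a ∪ P) (Function.update (extU503 (T' a) (φ₀ a)) w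
          (locD311 w H' z' 1 (extU503 (T' a) (φ₀ a) w))) (Φc a)
        = dStep589 w H' z' 1 (pure305 (T' a) (φ₀ a) (Φc a)) := funext fun h => hup a h
    rw [h]
    exact hDT' _ w hwn H' z' hH' hz' _ (hB1 a) 1
  · -- joint continuity upstairs
    have h : (fun p : Ω × G F => pure305 (T' p.1 ∪ P)
          (Function.update (extU503 (T' p.1) (φ₀ p.1)) w
            (locD311 w H' z' 1 (extU503 (T' p.1) (φ₀ p.1) w))) (Φc p.1) p.2)
        = fun p : Ω × G F => dStep589 w H' z' 1 (pure305 (T' p.1) (φ₀ p.1) (Φc p.1)) p.2 :=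
      funext fun p => hup p.1 p.2
    rw [h]
    exact hC' Ω (fun a => pure305 (T' a) (φ₀ a) (Φc a)) hC1 w H' z' 1
  · -- common compact support upstairs
    obtain ⟨C₁, hC₁, hs⟩ := hS' Ω (fun a => pure305 (T' a) (φ₀ a) (Φc a)) C' hC'c hD1 w H' z' 1
    refine ⟨C₁, hC₁, fun a h hne => hs a h ?_⟩
    rw [hup a h] at hne
    exact hne
  · -- the integral upstairs
    intro h
    rw [hI' Ω ν (fun a => pure305 (T' a) (φ₀ a) (Φc a)) hC1 φ hE1 w H' z' 1 h]
    exact integral_congr_ae (Filter.Eventually.of_forall fun a => (hup a h).symm)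

end Shape

/-! ## 4. The node and the step -/

section Top

variable (F : Type) [Field F] [NumberField F]

/-- **NODE TQ.5 `ShapeTQC216`, PROVED.** -/
theorem shapeTQC216_done : ShapeTQC216 F := by
  intro hDT' hDT hS3 hIQ Φ B hB hRam 𝔫 hlev T₀ n n₀ m hexp c _ w hwS v d hres
    H' z' H z hH' hz' hH hz φ f hgood
  have hcyc : IsCycExt ℚ F 2 := H546.isCycExt_of_isImagQuad546c F hIQ
  have hRamIn : CQ57.RamInQ57 (toBase962_732 B) := H644.unramQC644 F hS3 hIQ Φ B hB hRam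
  obtain ⟨vP, fr, P, hresP, huniqv, hP, hunr⟩ := H963.placesC963 (K := ℚ) (K' := F) 2 hcyc w
  have hvw : PlaceOver ℚ F v w := hres.1
  have hvv : v = vP := huniqv v hvw
  rw [← hvv] at hresP hP hunr
  have hdfr : d = fr := by
    have h2 := H557.two_le_absNorm_557 v
    have e : Ideal.absNorm v.asIdeal ^ d = Ideal.absNorm v.asIdeal ^ fr := by
      rw [← hres.2, ← hresP.2]
    exact Nat.pow_right_injective h2 e
  rw [← hdfr] at hunr
  obtain ⟨hinert, hsplit⟩ := hunr (hRamIn v w hvw hwS)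
  have hvn : ¬ v.asIdeal ∣ 𝔫 := H846Q.not_dvd_levelQ846 hlev hvw hwS
  have hwn : ¬ w.asIdeal ∣ upI (K' := F) 𝔫 := fun h => hwS ((hlev.mem_S'_g w).2 h)
  have hv0 : v ∉ T₀ := fun h => hvn ((hexp.div v).1 h)
  exact shapeQ_newT216 (H595.pureDC595 F) (sphDC_closed311 F) (sphDC_closed311 ℚ)
    (H90D.dContC311_h90 F) (H90D.dContC311_h90 ℚ) (H90D.dSuppC311_h90 F)
    (H90D.dSuppC311_h90 ℚ) (H90D.dIntC311_h90 F) (H90D.dIntC311_h90 ℚ)
    B981.H619.unitSphC619 hDT' hDT 𝔫 c hgood.shape P hP hv0 hres hinert hsplit hvn hwn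
    hH' hz' hH hz

/-- **NODE A.1 over `ℚ` = STEP-T**, VERBATIM, unconditional. -/
theorem stepTQC216 : PQ484.StepTQC484 F :=
  stepTQC_of216 (F := F) (H861.placeC861 (K := ℚ) (K' := F)) (placeQC216_done F)
    (H805.sysC805 F) (H805.sysC805 ℚ)
    (H32.dTestC32 (F := F)) (dTestTC216_done ℚ)
    (H32.dEkC32 (F := F)) (dEkTC216_done ℚ)
    (H32.dSuppC32 (F := F)) (H32.dSuppC32 (F := ℚ))
    (H176.dOpC176 F) (dOpTC216_done ℚ) (shapeTQC216_done F)

end Top

/-- Verbatim check. -/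
example (F : Type) [Field F] [NumberField F] : Fermat.Agent.LT.T7.PQ484.StepTQC484 F :=
  stepTQC216 F

/-! ## Appendix: the equation lemmas of the definition of this file are realised HERE -/

theorem eqns_realised_stepTQDone216 : True := by
  have _a0 := @qFnQ216.eq_1
  have _a1 := @qFnQ216.eq_def
  have _a2 := @qFnQ216.eq_unfold
  trivial

end Fermat.Agent.LT.T7.TQ216

end
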