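import Mathlib
import Fermat.Agent.LT.T7.H216.StepTQDone
import Fermat.Agent.LT.T7.H484.PairAQBridge484

/-!
# Row LT, tower T7, node T7.L2Q.1.H2a.A `CQ801.PairAQC801` (first pair over `ℚ`, registry row
# 2855): INTEGRATION of the two finite steps (helper216, OFF-MAIN)

OFF-MAIN.  Complete proofs, nothing assumed.

    pairAQC_of_base216 : CQ801.BaseAQC801 P F → CQ801.PairAQC801 P F
    pairAQC_of_open216 : (CQ801.BaseAQC801 P F ∨ (PQ484.BaseAQC484 P F ∧ PQ484.StepMQC484 F))
                            → CQ801.PairAQC801 P F

= `PQ484.pairAQC_of_either484` (helper484 `PairAQBridge484.lean`) with the two closed steps at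
the finite places: `TQ216.stepTQC216` (`StepTQDone.lean`, helper216) and `H846Q.stepSQC846`
(helper846), ONE closure, byte-identical copies.  OPEN for `PairAQC801`: the base node
(`CQ801.BaseAQC801`, all words of sphere means; or `PQ484.BaseAQC484` with the generic step
`PQ484.StepMQC484`) ONLY.
-/

set_option autoImplicit false

open AutomorphicForm IsDedekindDomain NumberField

noncomputable section

namespace Fermat.Agent.LT.T7.TQ216

open Fermat.Agent.LT.H556 Fermat.Agent.LT.T7

variable (P : EKCond) (F : Type) [Field F] [NumberField F]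

/-- **`PairAQC801` from either form of the base**: the two steps at the finite places are
closed. -/
theorem pairAQC_of_open216
    (hB : CQ801.BaseAQC801 P F ∨ (PQ484.BaseAQC484 P F ∧ PQ484.StepMQC484 F)) :
    CQ801.PairAQC801 P F :=
  PQ484.pairAQC_of_either484 hB (stepTQC216 F) (H846Q.stepSQC846 F)

/-- **`PairAQC801` from the base for the words of sphere means.** -/
theorem pairAQC_of_base216 (hB : CQ801.BaseAQC801 P F) : CQ801.PairAQC801 P F :=
  pairAQC_of_open216 P F (Or.inl hB)

end Fermat.Agent.LT.T7.TQ216

end
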