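import Mathlib
import Fermat.Agent.LT.T7.H57.FoldSpec2

/-!
# Row LT, tower T7, LEAF `BoxIntC57` (registry 2058) -- CUT (helper216), OFF-MAIN

Definitions, frozen sub-leaf Props and the PROVED top.  No hole, nothing assumed.
Imports: Mathlib + `LT/T7/H57/FoldSpec2.lean` (helper57@1b7c508ec, sha256 9d46bc8cd952ee09,
byte-identical copy) and its closure.

```
T1.T1Out K → BoxIntC57 K  ⇐  HaarLogC216 + IdeleRayC216 K + NormInvC216 K + NormFinC216 K
                               + CalcC216 + BoxFubiniC216 K           (`boxInt_of_leaves216`)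
```

`m = pushN216 K τ FX` is the push-forward of `τ|FX` under the idele norm `nrm57`.

* `HaarLogC216`   (B.1, Mathlib only): a non-zero measure on `ℝ`, carried by `(0, ∞)`, invariant
  under all dilations `t ↦ s t` (`s > 0`), finite on `[1, 2]`, is `V₀ · dt/t` with `0 < V₀ < ∞`.
* `IdeleRayC216`  (B.2): a continuous section of the idele norm over `(0, ∞)` (the ray at one
  infinite place).
* `NormInvC216`   (B.3): `m` is invariant under all dilations (translate the fundamental domain by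
  an idele of norm `s`; `IsFundamentalDomain.smul_of_comm`, `measure_set_eq`, product formula).
* `NormFinC216`   (B.4): `m [a, b] < ∞` (Fujisaki: `nrm⁻¹ [a, b] ⊆ Kˣ · C · j [a, b]`, a compact
  set; `IsFundamentalDomain.measure_eq_tsum`).
* `NormPushC216`  (node, PROVED from B.1-B.4 in `normPush_of_leaves216`):
  `∫⁻_{FX} f (nrm y) dτ = V₀ ∫⁻_{t > 0} f t dt/t` for every measurable `f ≥ 0`.
* `CalcC216`      (B.5, Mathlib only): `∫_{t ≥ Y} t⁻² dt < ∞` and
  `∫_{t > 0, 1 ≤ c t² < 2} dt/t = log 2 / 2`, as lower integrals.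
* `BoxFubiniC216` (B.6, helper216): `CalcC216 → NormPushC216 K → BoxIntC57 K` (Tonelli / Fubini on
  the box; the `z`-integral is the constant `V = V₀ log 2 / 2`).
-/

set_option autoImplicit false

open AutomorphicForm IsDedekindDomain NumberField Filter Topology MeasureTheory
open scoped ComplexConjugate ENNReal

noncomputable section

namespace Fermat.Agent.LT.T7.H216

open Fermat.Agent.LT.H556 Fermat.Agent.LT.H556.A0 Fermat.Agent.LT.T7 Fermat.Agent.LT.T7.Rigid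
open Fermat.Agent.LT.T7.H57

variable (K : Type) [Field K] [NumberField K]

/-! ## Vocabulary -/

/-- The measure `dt / t` on `(0, ∞)`. -/
def dtt216 : Measure ℝ :=
  (volume.restrict (Set.Ioi (0 : ℝ))).withDensity fun t => ENNReal.ofReal t⁻¹

/-- The push-forward of `τ|FX` under the idele norm. -/
def pushN216 {_ : MeasurableSpace (Adl K)ˣ} (τ : Measure (Adl K)ˣ) (FX : Set (Adl K)ˣ) :
    Measure ℝ :=
  Measure.map (nrm57 K) (τ.restrict FX)

/-! ## The Props -/

/-- **B.1 (Mathlib only).**  Uniqueness of the Haar measure of `(0, ∞)`. -/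
def HaarLogC216 : Prop :=
  ∀ m : Measure ℝ, m (Set.Iic 0) = 0 →
    (∀ s : ℝ, 0 < s → Measure.map (fun t : ℝ => s * t) m = m) →
    m (Set.Icc 1 2) < ⊤ → m ≠ 0 →
    ∃ V₀ : ℝ, 0 < V₀ ∧ m = ENNReal.ofReal V₀ • dtt216

/-- **B.2.**  A continuous section of the idele norm over `(0, ∞)`. -/
def IdeleRayC216 : Prop :=
  ∃ j : ℝ → (Adl K)ˣ, ContinuousOn j (Set.Ioi 0) ∧ ∀ s : ℝ, 0 < s → nrm57 K (j s) = s

/-- **B.3.**  The push-forward of `τ|FX` under the norm is invariant under all dilations. -/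
def NormInvC216 : Prop :=
  letI : MeasurableSpace (Adl K)ˣ := borel (Adl K)ˣ
  Fermat.Agent.LT.T1.T1Out K → (∀ s : ℝ, 0 < s → ∃ y : (Adl K)ˣ, nrm57 K y = s) →
  ∀ τ : Measure (Adl K)ˣ, τ.IsHaarMeasure →
  ∀ FX : Set (Adl K)ˣ, MeasurableSet FX → IsFundamentalDomain (ratU57 K).range FX τ →
    ∀ s : ℝ, 0 < s → Measure.map (fun t : ℝ => s * t) (pushN216 K τ FX) = pushN216 K τ FX

/-- **B.4.**  The push-forward of `τ|FX` under the norm is finite on the compact intervals of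
`(0, ∞)`. -/
def NormFinC216 : Prop :=
  letI : MeasurableSpace (Adl K)ˣ := borel (Adl K)ˣ
  Fermat.Agent.LT.T1.T1Out K → IdeleRayC216 K →
  ∀ τ : Measure (Adl K)ˣ, τ.IsHaarMeasure →
  ∀ FX : Set (Adl K)ˣ, MeasurableSet FX → IsFundamentalDomain (ratU57 K).range FX τ →
    ∀ a b : ℝ, 0 < a → a ≤ b → pushN216 K τ FX (Set.Icc a b) < ⊤

/-- **NODE NormPush** (proved from B.1-B.4). -/
def NormPushC216 : Prop :=
  letI : MeasurableSpace (Adl K)ˣ := borel (Adl K)ˣ
  ∀ τ : Measure (Adl K)ˣ, τ.IsHaarMeasure →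
  ∀ FX : Set (Adl K)ˣ, MeasurableSet FX → IsFundamentalDomain (ratU57 K).range FX τ →
    ∃ V₀ : ℝ, 0 < V₀ ∧ ∀ f : ℝ → ℝ≥0∞, Measurable f →
      ∫⁻ y in FX, f (nrm57 K y) ∂τ
        = ENNReal.ofReal V₀ * ∫⁻ t in Set.Ioi (0 : ℝ), ENNReal.ofReal t⁻¹ * f t

/-- **B.5 (Mathlib only).**  The two one-variable integrals: `∫_{t ≥ Y} t⁻² dt < ∞` and
`∫_{t > 0, 1 ≤ c t² < 2} dt / t = log 2 / 2`. -/
def CalcC216 : Prop :=
  (∀ Y : ℝ, 0 < Y →
    ∫⁻ t in Set.Ioi (0 : ℝ),
      ENNReal.ofReal t⁻¹ * (Set.Ici Y).indicator (fun u : ℝ => ENNReal.ofReal u⁻¹) t < ⊤) ∧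
  ∀ c : ℝ, 0 < c →
    ∫⁻ t in Set.Ioi (0 : ℝ),
      ENNReal.ofReal t⁻¹ *
        {u : ℝ | 1 ≤ c * u ^ 2 ∧ c * u ^ 2 < 2}.indicator (fun _ : ℝ => (1 : ℝ≥0∞)) t
      = ENNReal.ofReal (Real.log 2 / 2)

/-- **B.6.**  The box integral from `NormPush` (Tonelli / Fubini). -/
def BoxFubiniC216 : Prop :=
  Fermat.Agent.LT.T1.T1Out K → CalcC216 → NormPushC216 K → BoxIntC57 K

end Fermat.Agent.LT.T7.H216

end
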