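import Fermat.Agent.LT.T7.H216.BoxFubini
import Fermat.Agent.LT.T7.H729.HaarLog
import Fermat.Agent.LT.T7.H420.IdeleRay
import Fermat.Agent.LT.T7.H171.Calc
import Fermat.Agent.LT.T7.H171.NormInv
import Fermat.Agent.LT.T7.H171.NormFin

/-!
# Row LT, tower T7, LEAF `BoxIntC57` (registry 2058) -- CLOSED (helper216), OFF-MAIN

`boxIntC57_closed216 (K) : T1.T1Out K → BoxIntC57 K`, in ONE import closure:

| sub-leaf | proved by |
|---|---|
| B.1 `HaarLogC216`   | helper729 `haarLogC729` (`LT/T7/H729/HaarLog.lean`, `HaarLogCore.lean`) |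
| B.2 `IdeleRayC216`  | helper420 `ideleRayC420` (`LT/T7/H420/IdeleRay.lean`) |
| B.3 `NormInvC216`   | helper171 `normInvC216_171` (`LT/T7/H171/NormInv.lean`) |
| B.4 `NormFinC216`   | helper171 `normFinC216_171` (`LT/T7/H171/NormFin.lean`) |
| B.5 `CalcC216`      | helper171 `calcC216_171` (`LT/T7/H171/Calc.lean`, `CalcCore.lean`) |
| B.6 `BoxFubiniC216` | helper216 `boxFubini216` (`LT/T7/H216/BoxFubini.lean`) |

All files of the other seats are byte-identical copies of their branches.
-/

set_option autoImplicit false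

namespace Fermat.Agent.LT.T7.H216

open Fermat.Agent.LT.T7.H57

/-- **`BoxIntC57` is closed** (hypothesis: the output of tower T1, closed by helper54). -/
theorem boxIntC57_closed216 (K : Type) [Field K] [NumberField K]
    (hT : Fermat.Agent.LT.T1.T1Out K) : BoxIntC57 K :=
  boxInt_of_leaves216 Fermat.Agent.LT.T7.H729.haarLogC729
    (Fermat.Agent.LT.T7.H420.ideleRayC420 (K := K))
    (Fermat.Agent.LT.T7.H171.normInvC216_171 K) (Fermat.Agent.LT.T7.H171.normFinC216_171 K)
    Fermat.Agent.LT.T7.H171.calcC216_171 boxFubini216 hT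

end Fermat.Agent.LT.T7.H216
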