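import Mathlib
import Fermat.Agent.LT.T7.H216.BoxSpec

/-!
# Row LT, tower T7, LEAF `BoxIntC57` (registry 2058) -- the PROVED top of the cut (helper216)

`boxInt_of_leaves216 : HaarLogC216 → IdeleRayC216 K → NormInvC216 K → NormFinC216 K →
  CalcC216 → BoxFubiniC216 K → T1.T1Out K → BoxIntC57 K`, through the node
`normPush_of_leaves216 : … → T1.T1Out K → NormPushC216 K`.
-/

set_option autoImplicit false
set_option linter.style.haveILetI false

open AutomorphicForm IsDedekindDomain NumberField Filter Topology MeasureTheory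
open scoped ComplexConjugate ENNReal

noncomputable section

namespace Fermat.Agent.LT.T7.H216

open Fermat.Agent.LT.H556 Fermat.Agent.LT.H556.A0 Fermat.Agent.LT.T7 Fermat.Agent.LT.T7.Rigid
open Fermat.Agent.LT.T7.H57

variable {K : Type} [Field K] [NumberField K]

/-- A number field is countable. -/
theorem countable_K216 (K : Type) [Field K] [NumberField K] : Countable K :=
  (Module.finBasis ℚ K).equivFun.injective.countable

/-- The principal ideles are countable. -/
theorem countable_ratU216 (K : Type) [Field K] [NumberField K] :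
    Countable (ratU57 K).range := by
  have := countable_K216 K
  have : Countable Kˣ := (Units.val_injective (α := K)).countable
  have : Countable (Set.range (ratU57 K)) := (Set.countable_range _).to_subtype
  exact this

theorem nrm57_pos216 (hN : Fermat.Agent.LT.T1.AdNormC K) (y : (Adl K)ˣ) : 0 < nrm57 K y :=
  hN.1 y

theorem continuous_nrm57_216 (hN : Fermat.Agent.LT.T1.AdNormC K) : Continuous (nrm57 K) :=
  hN.2.2.2

/-- **NODE NormPush** from the leaves B.1-B.4. -/
theorem normPush_of_leaves216 (h1 : HaarLogC216) (h2 : IdeleRayC216 K) (h3 : NormInvC216 K)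
    (h4 : NormFinC216 K) (hT : Fermat.Agent.LT.T1.T1Out K) : NormPushC216 K := by
  letI : MeasurableSpace (Adl K)ˣ := borel (Adl K)ˣ
  haveI : BorelSpace (Adl K)ˣ := ⟨rfl⟩
  intro τ hτ FX hFXm hFX
  haveI := hτ
  haveI := countable_ratU216 K
  have hN := hT.adNorm
  have hnc : Continuous (nrm57 K) := continuous_nrm57_216 hN
  have hnm : Measurable (nrm57 K) := hnc.measurable
  obtain ⟨j, _, hj⟩ := h2
  have hex : ∀ s : ℝ, 0 < s → ∃ y : (Adl K)ˣ, nrm57 K y = s := fun s hs => ⟨j s, hj s hs⟩
  have hinv := h3 hT hex τ hτ FX hFXm hFX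
  have hfin := h4 hT ⟨j, ‹_›, hj⟩ τ hτ FX hFXm hFX 1 2 one_pos one_le_two
  -- the measure is carried by `(0, ∞)`
  have h0 : pushN216 K τ FX (Set.Iic 0) = 0 := by
    rw [pushN216, Measure.map_apply hnm measurableSet_Iic]
    have : nrm57 K ⁻¹' Set.Iic 0 = ∅ := by
      ext y
      simp only [Set.mem_preimage, Set.mem_Iic, Set.mem_empty_iff_false, iff_false, not_le]
      exact nrm57_pos216 hN y
    rw [this, measure_empty]
  -- the measure is not zero
  have hne : pushN216 K τ FX ≠ 0 := by
    intro h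
    have h' : pushN216 K τ FX Set.univ = 0 := by rw [h]; rfl
    rw [pushN216, Measure.map_apply hnm MeasurableSet.univ, Set.preimage_univ,
      Measure.restrict_apply MeasurableSet.univ, Set.univ_inter] at h'
    exact hFX.measure_ne_zero (NeZero.ne τ) h'
  obtain ⟨V₀, hV₀, hm⟩ := h1 (pushN216 K τ FX) h0 hinv hfin hne
  refine ⟨V₀, hV₀, fun f hf => ?_⟩
  have e1 : ∫⁻ y in FX, f (nrm57 K y) ∂τ = ∫⁻ t, f t ∂(pushN216 K τ FX) := by
    rw [pushN216, lintegral_map hf hnm]
  rw [e1, hm, lintegral_smul_measure, dtt216,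
    lintegral_withDensity_eq_lintegral_mul _ (by fun_prop) hf]
  rfl

/-- **THE TOP of the cut of `BoxIntC57`.** -/
theorem boxInt_of_leaves216 (h1 : HaarLogC216) (h2 : IdeleRayC216 K) (h3 : NormInvC216 K)
    (h4 : NormFinC216 K) (h5 : CalcC216) (h6 : BoxFubiniC216 K)
    (hT : Fermat.Agent.LT.T1.T1Out K) : BoxIntC57 K :=
  h6 hT h5 (normPush_of_leaves216 h1 h2 h3 h4 hT)

end Fermat.Agent.LT.T7.H216

end
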