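import Mathlib
import Fermat.Agent.LT.T7.H216.BoxTop

/-!
# Row LT, tower T7, LEAF `BoxIntC57`, sub-leaf B.6 `BoxFubiniC216` (helper216), OFF-MAIN

`boxFubini216 : BoxFubiniC216 K`, i.e. `T1.T1Out K → CalcC216 → NormPushC216 K → BoxIntC57 K`.

Route: the abstract lemmas `map_restrict_box216` (the projection `(x, y, z) ↦ (x, y)` of the
restriction of `ν × τ × τ` to a box with fibres of constant measure `c` is `c • (ν × τ)|R`),
`lintegral_box216`, `integral_box216` (Tonelli / Fubini); the fibre `{z ∈ FX : 1 ≤ |y| |z|² < 2}`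
has measure `V = V₀ log 2 / 2` by `NormPush` and `CalcC216`.
-/

set_option autoImplicit false
set_option linter.style.haveILetI false

open AutomorphicForm IsDedekindDomain NumberField Filter Topology MeasureTheory
open scoped ComplexConjugate ENNReal

noncomputable section

namespace Fermat.Agent.LT.T7.H216

open Fermat.Agent.LT.H556 Fermat.Agent.LT.H556.A0 Fermat.Agent.LT.T7 Fermat.Agent.LT.T7.Rigid
open Fermat.Agent.LT.T7.H57

/-! ## Abstract measure theory -/

section Abstract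

variable {X Y : Type*} [MeasurableSpace X] [MeasurableSpace Y]
  (ν : Measure X) (τ : Measure Y) [SFinite ν] [SFinite τ]

omit [SFinite ν] in
/-- Abstract projection lemma: integrating out a fibre of constant measure. -/
theorem map_restrict_box216
    (R : Set (X × Y)) (hR : MeasurableSet R) (E : Set (Y × Y)) (hE : MeasurableSet E)
    (c : ℝ≥0∞) (hc : ∀ y : Y, τ (Prod.mk y ⁻¹' E) = c) :
    Measure.map (fun p : X × Y × Y => (p.1, p.2.1))
        ((ν.prod (τ.prod τ)).restrict {p : X × Y × Y | (p.1, p.2.1) ∈ R ∧ (p.2.1, p.2.2) ∈ E})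
      = c • (ν.prod τ).restrict R := by
  have hπ : Measurable (fun p : X × Y × Y => (p.1, p.2.1)) :=
    measurable_fst.prodMk (measurable_fst.comp measurable_snd)
  have hσ : Measurable (fun p : X × Y × Y => (p.2.1, p.2.2)) :=
    (measurable_fst.comp measurable_snd).prodMk (measurable_snd.comp measurable_snd)
  have hbox : MeasurableSet {p : X × Y × Y | (p.1, p.2.1) ∈ R ∧ (p.2.1, p.2.2) ∈ E} :=
    (hπ hR).inter (hσ hE)
  ext S hS
  rw [Measure.map_apply hπ hS, Measure.restrict_apply (hπ hS), Measure.smul_apply,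
    Measure.restrict_apply hS, smul_eq_mul]
  set A : Set (X × Y × Y) := (fun p : X × Y × Y => (p.1, p.2.1)) ⁻¹' S ∩
    {p : X × Y × Y | (p.1, p.2.1) ∈ R ∧ (p.2.1, p.2.2) ∈ E} with hA
  have hAm : MeasurableSet A := (hπ hS).inter hbox
  rw [Measure.prod_apply hAm]
  have h1 : ∀ x : X, (τ.prod τ) (Prod.mk x ⁻¹' A)
      = ∫⁻ y, (S ∩ R).indicator (fun _ => c) (x, y) ∂τ := by
    intro x
    rw [Measure.prod_apply (measurable_prodMk_left hAm)]
    refine lintegral_congr (fun y => ?_)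
    by_cases hxy : (x, y) ∈ S ∩ R
    · rw [Set.indicator_of_mem hxy, ← hc y]
      congr 1
      ext z
      simp only [Set.mem_preimage, hA, Set.mem_inter_iff, Set.mem_ofPred_eq]
      exact ⟨fun h => h.2.2, fun h => ⟨hxy.1, hxy.2, h⟩⟩
    · rw [Set.indicator_of_notMem hxy]
      have : Prod.mk y ⁻¹' (Prod.mk x ⁻¹' A) = ∅ := by
        ext z
        simp only [Set.mem_preimage, hA, Set.mem_inter_iff, Set.mem_ofPred_eq,
          Set.mem_empty_iff_false, iff_false]
        exact fun h => hxy ⟨h.1, h.2.1⟩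
      rw [this, measure_empty]
  simp_rw [h1]
  rw [← lintegral_prod _ ((measurable_const.indicator (hS.inter hR)).aemeasurable),
    lintegral_indicator (hS.inter hR), setLIntegral_const]

/-- Lower integral over a rectangle of a function of the second variable. -/
theorem lintegral_rect216 (D : Set X) (W : Set Y) (g : Y → ℝ≥0∞) (hg : Measurable g) :
    ∫⁻ w in D ×ˢ W, g w.2 ∂(ν.prod τ) = ν D * ∫⁻ y in W, g y ∂τ := by
  have hg' : Measurable fun w : X × Y => g w.2 := hg.comp measurable_snd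
  rw [← Measure.prod_restrict, lintegral_prod (fun w : X × Y => g w.2) hg'.aemeasurable]
  show ∫⁻ _ in D, (∫⁻ y in W, g y ∂τ) ∂ν = _
  rw [lintegral_const, Measure.restrict_apply MeasurableSet.univ, Set.univ_inter, mul_comm]

/-- The lower integral over the box of a function of the middle variable. -/
theorem lintegral_box216
    (D : Set X) (hD : MeasurableSet D) (W : Set Y) (hW : MeasurableSet W)
    (E : Set (Y × Y)) (hE : MeasurableSet E)
    (c : ℝ≥0∞) (hc : ∀ y : Y, τ (Prod.mk y ⁻¹' E) = c) (g : Y → ℝ≥0∞) (hg : Measurable g) :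
    ∫⁻ p in {p : X × Y × Y | (p.1, p.2.1) ∈ D ×ˢ W ∧ (p.2.1, p.2.2) ∈ E}, g p.2.1
        ∂(ν.prod (τ.prod τ))
      = c * (ν D * ∫⁻ y in W, g y ∂τ) := by
  have hπ : Measurable (fun p : X × Y × Y => (p.1, p.2.1)) :=
    measurable_fst.prodMk (measurable_fst.comp measurable_snd)
  have hg' : Measurable fun w : X × Y => g w.2 := hg.comp measurable_snd
  have e : ∫⁻ p in {p : X × Y × Y | (p.1, p.2.1) ∈ D ×ˢ W ∧ (p.2.1, p.2.2) ∈ E}, g p.2.1
        ∂(ν.prod (τ.prod τ))
      = ∫⁻ w, g w.2 ∂(Measure.map (fun p : X × Y × Y => (p.1, p.2.1))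
          ((ν.prod (τ.prod τ)).restrict
            {p : X × Y × Y | (p.1, p.2.1) ∈ D ×ˢ W ∧ (p.2.1, p.2.2) ∈ E})) := by
    rw [lintegral_map hg' hπ]
  rw [e, map_restrict_box216 ν τ (D ×ˢ W) (hD.prod hW) E hE c hc, lintegral_smul_measure,
    lintegral_rect216 ν τ D W g hg, smul_eq_mul]

/-- Fubini on the box for a dominated function of the first two variables. -/
theorem integral_box216
    (D : Set X) (hD : MeasurableSet D) (hDfin : ν D < ⊤) (W : Set Y) (hW : MeasurableSet W)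
    (E : Set (Y × Y)) (hE : MeasurableSet E)
    (c : ℝ≥0∞) (hc : ∀ y : Y, τ (Prod.mk y ⁻¹' E) = c)
    (H : X × Y → ℂ) (hH : StronglyMeasurable H) (C : ℝ) (hC : 0 ≤ C) (k : Y → ℝ)
    (hk : Measurable k) (hk0 : ∀ y, 0 ≤ k y) (hbd : ∀ w, ‖H w‖ ≤ C * k w.2)
    (hfin : ∫⁻ y in W, ENNReal.ofReal (k y) ∂τ < ⊤) :
    ∫ p in {p : X × Y × Y | (p.1, p.2.1) ∈ D ×ˢ W ∧ (p.2.1, p.2.2) ∈ E}, H (p.1, p.2.1)
        ∂(ν.prod (τ.prod τ))
      = c.toReal • ∫ y in W, ∫ x in D, H (x, y) ∂ν ∂τ := by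
  have hπ : Measurable (fun p : X × Y × Y => (p.1, p.2.1)) :=
    measurable_fst.prodMk (measurable_fst.comp measurable_snd)
  have e1 : ∫ p in {p : X × Y × Y | (p.1, p.2.1) ∈ D ×ˢ W ∧ (p.2.1, p.2.2) ∈ E},
        H (p.1, p.2.1) ∂(ν.prod (τ.prod τ))
      = ∫ w, H w ∂(Measure.map (fun p : X × Y × Y => (p.1, p.2.1))
          ((ν.prod (τ.prod τ)).restrict
            {p : X × Y × Y | (p.1, p.2.1) ∈ D ×ˢ W ∧ (p.2.1, p.2.2) ∈ E})) := by
    rw [integral_map hπ.aemeasurable hH.aestronglyMeasurable]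
  have hint : Integrable H ((ν.restrict D).prod (τ.restrict W)) := by
    refine Integrable.mono' (g := fun w => C * k w.2) ?_ hH.aestronglyMeasurable
      (Filter.Eventually.of_forall hbd)
    refine ⟨(measurable_const.mul (hk.comp measurable_snd)).aestronglyMeasurable, ?_⟩
    rw [hasFiniteIntegral_iff_ofReal (f := fun w : X × Y => C * k w.2)
      (Filter.Eventually.of_forall fun w => mul_nonneg hC (hk0 w.2))]
    simp_rw [ENNReal.ofReal_mul hC]
    have hk' : Measurable fun w : X × Y => ENNReal.ofReal (k w.2) :=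
      ENNReal.measurable_ofReal.comp (hk.comp measurable_snd)
    rw [lintegral_const_mul (ENNReal.ofReal C) hk', Measure.prod_restrict,
      lintegral_rect216 ν τ D W (fun y => ENNReal.ofReal (k y))
        (ENNReal.measurable_ofReal.comp hk)]
    exact ENNReal.mul_lt_top ENNReal.ofReal_lt_top (ENNReal.mul_lt_top hDfin hfin)
  rw [e1, map_restrict_box216 ν τ (D ×ˢ W) (hD.prod hW) E hE c hc, integral_smul_measure,
    ← Measure.prod_restrict, integral_prod_symm H hint]


end Abstract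

/-! ## Topology of the ideles -/

section Idele

variable {K : Type} [Field K] [NumberField K]

theorem idele_top216 (hLC : Fermat.Agent.LT.T1.LocCompC K) :
    LocallyCompactSpace (Adl K)ˣ ∧ T2Space (Adl K)ˣ ∧ SecondCountableTopology (Adl K)ˣ := by
  obtain ⟨⟨h1, h2, h3⟩, -⟩ := hLC
  haveI := h1
  haveI := h2
  haveI := h3
  refine ⟨inferInstance, inferInstance, ?_⟩
  have : SecondCountableTopology (Adl K)ᵐᵒᵖ :=
    (MulOpposite.opHomeomorph (M := Adl K)).symm.secondCountableTopology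
  exact Units.isEmbedding_embedProduct.secondCountableTopology

theorem continuous_unip216 : Continuous (Fermat.Agent.LT.T3.unip K) := by
  rw [Units.continuous_iff]
  constructor
  · refine continuous_matrix (fun i j => ?_)
    fin_cases i <;> fin_cases j <;> simp [Fermat.Agent.LT.T3.unip] <;> fun_prop
  · refine continuous_matrix (fun i j => ?_)
    fin_cases i <;> fin_cases j <;> simp [Fermat.Agent.LT.T3.unip] <;> fun_prop

theorem continuous_dgA216 : Continuous (dgA : (Adl K)ˣ → G K) := by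
  rw [Units.continuous_iff]
  constructor
  · refine continuous_matrix (fun i j => ?_)
    fin_cases i <;> fin_cases j <;> simp [dgA] <;> fun_prop
  · refine continuous_matrix (fun i j => ?_)
    fin_cases i <;> fin_cases j <;> simp [dgA] <;> fun_prop

/-- The set `{u : 1 ≤ c u² < 2}`. -/
def annu216 (c : ℝ) : Set ℝ := {u : ℝ | 1 ≤ c * u ^ 2 ∧ c * u ^ 2 < 2}

theorem measurableSet_annu216 (c : ℝ) : MeasurableSet (annu216 c) := by
  unfold annu216
  have h : Measurable fun u : ℝ => c * u ^ 2 := measurable_const.mul (measurable_id.pow_const 2)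
  exact (measurableSet_le measurable_const h).inter (measurableSet_lt h measurable_const)

/-- The fibre set `{(y, z) : z ∈ FX, 1 ≤ |y| |z|² < 2}`. -/
def fib216 (K : Type) [Field K] [NumberField K] (FX : Set (Adl K)ˣ) :
    Set ((Adl K)ˣ × (Adl K)ˣ) :=
  {q | q.2 ∈ FX ∧ 1 ≤ nrm57 K q.1 * nrm57 K q.2 ^ 2 ∧ nrm57 K q.1 * nrm57 K q.2 ^ 2 < 2}

theorem box57_eq216 (D : Set (Adl K)) (FX : Set (Adl K)ˣ) (Y : ℝ) :
    box57 K D FX Y = {p : Adl K × (Adl K)ˣ × (Adl K)ˣ |
      (p.1, p.2.1) ∈ D ×ˢ (FX ∩ halfX57 K Y) ∧ (p.2.1, p.2.2) ∈ fib216 K FX} := by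
  ext p
  simp only [box57, fib216, halfX57, Set.mem_ofPred_eq, Set.mem_prod, Set.mem_inter_iff]
  tauto

theorem fib_preimage216 (FX : Set (Adl K)ˣ) (y : (Adl K)ˣ) :
    Prod.mk y ⁻¹' fib216 K FX = FX ∩ nrm57 K ⁻¹' annu216 (nrm57 K y) := rfl

end Idele

/-! ## The leaf -/

section Leaf

variable {K : Type} [Field K] [NumberField K]

/-- (a): the volume of the half line. -/
theorem half_fin216 {_ : MeasurableSpace (Adl K)ˣ} [BorelSpace (Adl K)ˣ]
    (hN : Fermat.Agent.LT.T1.AdNormC K) (hcalc : CalcC216)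
    (τ : Measure (Adl K)ˣ) (FX : Set (Adl K)ˣ) (V₀ : ℝ)
    (hP : ∀ f : ℝ → ℝ≥0∞, Measurable f →
      ∫⁻ y in FX, f (nrm57 K y) ∂τ
        = ENNReal.ofReal V₀ * ∫⁻ t in Set.Ioi (0 : ℝ), ENNReal.ofReal t⁻¹ * f t)
    (Y : ℝ) (hY : 0 < Y) :
    ∫⁻ y in FX ∩ halfX57 K Y, ENNReal.ofReal ((nrm57 K y)⁻¹) ∂τ < ⊤ := by
  have hnm : Measurable (nrm57 K) := (continuous_nrm57_216 hN).measurable
  have hhalf : MeasurableSet (halfX57 K Y) := measurableSet_le measurable_const hnm
  have hf : Measurable ((Set.Ici Y).indicator (fun u : ℝ => ENNReal.ofReal u⁻¹)) :=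
    Measurable.indicator (by fun_prop) measurableSet_Ici
  have e : ∫⁻ y in FX ∩ halfX57 K Y, ENNReal.ofReal ((nrm57 K y)⁻¹) ∂τ
      = ∫⁻ y in FX, (Set.Ici Y).indicator
          (fun u : ℝ => ENNReal.ofReal u⁻¹) (nrm57 K y) ∂τ := by
    rw [Set.inter_comm, ← Measure.restrict_restrict hhalf, ← lintegral_indicator hhalf]
    refine lintegral_congr (fun y => ?_)
    by_cases hy : y ∈ halfX57 K Y
    · have hy' : nrm57 K y ∈ Set.Ici Y := hy
      rw [Set.indicator_of_mem hy, Set.indicator_of_mem hy']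
    · have hy' : nrm57 K y ∉ Set.Ici Y := hy
      rw [Set.indicator_of_notMem hy, Set.indicator_of_notMem hy']
  rw [e, hP _ hf]
  exact ENNReal.mul_lt_top ENNReal.ofReal_lt_top (hcalc.1 Y hY)

/-- The fibres have constant measure `V₀ log 2 / 2`. -/
theorem fib_measure216 {_ : MeasurableSpace (Adl K)ˣ} [BorelSpace (Adl K)ˣ]
    (hN : Fermat.Agent.LT.T1.AdNormC K) (hcalc : CalcC216)
    (τ : Measure (Adl K)ˣ) (FX : Set (Adl K)ˣ) (V₀ : ℝ) (hV₀ : 0 < V₀)
    (hP : ∀ f : ℝ → ℝ≥0∞, Measurable f →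
      ∫⁻ y in FX, f (nrm57 K y) ∂τ
        = ENNReal.ofReal V₀ * ∫⁻ t in Set.Ioi (0 : ℝ), ENNReal.ofReal t⁻¹ * f t)
    (y : (Adl K)ˣ) :
    τ (Prod.mk y ⁻¹' fib216 K FX) = ENNReal.ofReal (V₀ * (Real.log 2 / 2)) := by
  have hnm : Measurable (nrm57 K) := (continuous_nrm57_216 hN).measurable
  have hc : 0 < nrm57 K y := nrm57_pos216 hN y
  rw [fib_preimage216]
  set c := nrm57 K y
  have hf : Measurable ((annu216 c).indicator (fun _ : ℝ => (1 : ℝ≥0∞))) :=
    measurable_const.indicator (measurableSet_annu216 c)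
  have e1 := hP _ hf
  have e2 : ∫⁻ t in Set.Ioi (0 : ℝ), ENNReal.ofReal t⁻¹ *
      (annu216 c).indicator (fun _ : ℝ => (1 : ℝ≥0∞)) t = ENNReal.ofReal (Real.log 2 / 2) :=
    hcalc.2 c hc
  have e3 : ∫⁻ z in FX, (annu216 c).indicator (fun _ : ℝ => (1 : ℝ≥0∞))
      (nrm57 K z) ∂τ = τ (FX ∩ nrm57 K ⁻¹' annu216 c) := by
    have : (fun z : (Adl K)ˣ => (annu216 c).indicator (fun _ : ℝ => (1 : ℝ≥0∞)) (nrm57 K z))
        = (nrm57 K ⁻¹' annu216 c).indicator (fun _ => (1 : ℝ≥0∞)) := by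
      funext z
      by_cases hz : nrm57 K z ∈ annu216 c
      · rw [Set.indicator_of_mem hz, Set.indicator_of_mem (show z ∈ nrm57 K ⁻¹' annu216 c from hz)]
      · rw [Set.indicator_of_notMem hz,
          Set.indicator_of_notMem (show z ∉ nrm57 K ⁻¹' annu216 c from hz)]
    rw [this, lintegral_indicator (hnm (measurableSet_annu216 c)), setLIntegral_const, one_mul,
      Measure.restrict_apply (hnm (measurableSet_annu216 c)), Set.inter_comm]
  rw [← e3, e1, e2, ENNReal.ofReal_mul hV₀.le]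

theorem measurableSet_fib216 {_ : MeasurableSpace (Adl K)ˣ} [BorelSpace (Adl K)ˣ]
    (hN : Fermat.Agent.LT.T1.AdNormC K) (FX : Set (Adl K)ˣ) (hFXm : MeasurableSet FX) :
    MeasurableSet (fib216 K FX) := by
  have hnm : Measurable (nrm57 K) := (continuous_nrm57_216 hN).measurable
  have h1 : Measurable fun q : (Adl K)ˣ × (Adl K)ˣ => nrm57 K q.1 * nrm57 K q.2 ^ 2 :=
    (hnm.comp measurable_fst).mul ((hnm.comp measurable_snd).pow_const 2)
  exact (measurable_snd hFXm).inter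
    ((measurableSet_le measurable_const h1).inter (measurableSet_lt h1 measurable_const))

/-- **B.6.**  The box integral from `NormPush`. -/
theorem boxFubini216 : BoxFubiniC216 K := by
  intro hT hcalc hpush
  letI : MeasurableSpace (Adl K) := borel (Adl K)
  letI : MeasurableSpace (Adl K)ˣ := borel (Adl K)ˣ
  haveI : BorelSpace (Adl K) := ⟨rfl⟩
  haveI : BorelSpace (Adl K)ˣ := ⟨rfl⟩
  obtain ⟨hLCI, hT2I, hSCI⟩ := idele_top216 hT.locComp
  obtain ⟨⟨hLC, hT2, hSC⟩, -⟩ := hT.locComp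
  haveI := hLCI
  haveI := hT2I
  haveI := hSCI
  haveI := hLC
  haveI := hT2
  haveI := hSC
  intro ν D hν hDm hD hDfin τ hτ FX hFXm hFX
  haveI := hν
  haveI := hτ
  haveI : SFinite ν := inferInstance
  haveI : SFinite τ := inferInstance
  have hN := hT.adNorm
  have hnc : Continuous (nrm57 K) := continuous_nrm57_216 hN
  have hnm : Measurable (nrm57 K) := hnc.measurable
  have hpos : ∀ y, 0 < nrm57 K y := nrm57_pos216 hN
  obtain ⟨V₀, hV₀, hP⟩ := hpush τ hτ FX hFXm hFX
  have hlog : 0 < Real.log 2 / 2 := div_pos (Real.log_pos one_lt_two) two_pos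
  have hVpos : 0 < V₀ * (Real.log 2 / 2) := mul_pos hV₀ hlog
  have hhalf : ∀ Y : ℝ, MeasurableSet (halfX57 K Y) := fun Y =>
    measurableSet_le measurable_const hnm
  have ha := half_fin216 hN hcalc τ FX V₀ hP
  have hEc := fib_measure216 hN hcalc τ FX V₀ hV₀ hP
  have hEm := measurableSet_fib216 hN FX hFXm
  have hg : Measurable fun y : (Adl K)ˣ => ENNReal.ofReal ((nrm57 K y)⁻¹) :=
    ENNReal.measurable_ofReal.comp hnm.inv
  refine ⟨V₀ * (Real.log 2 / 2), hVpos, ha, ?_, ?_⟩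
  · intro Y hY
    rw [box57_eq216 D FX Y,
      lintegral_box216 ν τ D hDm (FX ∩ halfX57 K Y) (hFXm.inter (hhalf Y)) (fib216 K FX) hEm
        _ hEc (fun y => ENNReal.ofReal ((nrm57 K y)⁻¹)) hg]
    exact ENNReal.mul_lt_top ENNReal.ofReal_lt_top (ENNReal.mul_lt_top hDfin (ha Y hY))
  · intro Φ hΦc hΦb hΦz Y hY
    obtain ⟨C, hC⟩ := hΦb
    have hC0 : 0 ≤ C := (norm_nonneg _).trans (hC 1)
    have hHc : Continuous fun w : Adl K × (Adl K)ˣ =>
        Φ (Fermat.Agent.LT.T3.unip K w.1 * dgA w.2) * (((nrm57 K w.2)⁻¹ : ℝ) : ℂ) := by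
      refine (hΦc.comp ((continuous_unip216.comp continuous_fst).mul
        (continuous_dgA216.comp continuous_snd))).mul ?_
      exact Complex.continuous_ofReal.comp
        ((hnc.comp continuous_snd).inv₀ (fun w => (hpos w.2).ne'))
    have hpt : ∀ p : Adl K × (Adl K)ˣ × (Adl K)ˣ,
        Φ (iota57 K p) * (((nrm57 K p.2.1)⁻¹ : ℝ) : ℂ)
          = (fun w : Adl K × (Adl K)ˣ =>
              Φ (Fermat.Agent.LT.T3.unip K w.1 * dgA w.2) * (((nrm57 K w.2)⁻¹ : ℝ) : ℂ))
            (p.1, p.2.1) := by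
      intro p
      simp only [iota57]
      rw [hΦz]
    have hbd : ∀ w : Adl K × (Adl K)ˣ,
        ‖(fun w : Adl K × (Adl K)ˣ =>
            Φ (Fermat.Agent.LT.T3.unip K w.1 * dgA w.2) * (((nrm57 K w.2)⁻¹ : ℝ) : ℂ)) w‖
          ≤ C * (fun y : (Adl K)ˣ => (nrm57 K y)⁻¹) w.2 := by
      intro w
      simp only [norm_mul, Complex.norm_real, Real.norm_eq_abs,
        abs_of_pos (inv_pos.2 (hpos w.2))]
      exact mul_le_mul_of_nonneg_right (hC _) (inv_pos.2 (hpos w.2)).le
    have key := integral_box216 ν τ D hDm hDfin (FX ∩ halfX57 K Y) (hFXm.inter (hhalf Y))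
      (fib216 K FX) hEm _ hEc
      (fun w : Adl K × (Adl K)ˣ =>
        Φ (Fermat.Agent.LT.T3.unip K w.1 * dgA w.2) * (((nrm57 K w.2)⁻¹ : ℝ) : ℂ))
      hHc.stronglyMeasurable C hC0 (fun y : (Adl K)ˣ => (nrm57 K y)⁻¹) hnm.inv
      (fun y => (inv_pos.2 (hpos y)).le) hbd (ha Y hY)
    rw [box57_eq216 D FX Y, integral_congr_ae (Filter.Eventually.of_forall hpt), key,
      ENNReal.toReal_ofReal hVpos.le, Complex.real_smul]
    congr 1
    refine integral_congr_ae (Filter.Eventually.of_forall fun y => ?_)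
    simp only
    rw [integral_mul_const]

end Leaf

end Fermat.Agent.LT.T7.H216

end
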